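import Fermat.Agent.LocalCFT.Unram
import Fermat.Agent.Coh.AltD
import Fermat.Agent.Coh.PLog

/-!
# The cyclotomic `ℤ_p`-extension of local fields
-/

set_option autoImplicit false
set_option linter.unusedSectionVars false
set_option linter.style.haveILetI false

namespace Fermat.Agent.LocalCFT

open Fermat.Agent.Coh Fermat.Agent.GalD Fermat.Agent.PLog Module IntermediateField

section general

variable {p : ℕ} [hp : Fact p.Prime] {Ω : Type*} [Field Ω] [CharZero Ω] [IsAlgClosed Ω]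

theorem exists_prim (n : ℕ) : ∃ ζ : Ω, IsPrimitiveRoot ζ (p ^ n) := by
  have : NeZero ((p ^ n : ℕ) : Ω) := ⟨by exact_mod_cast pow_ne_zero n hp.out.ne_zero⟩
  exact HasEnoughRootsOfUnity.exists_primitiveRoot Ω (p ^ n)

theorem cyc_iff {n : ℕ} {ζ : Ω} (hζ : IsPrimitiveRoot ζ (p ^ n)) (g : Ω ≃+* Ω) (a : ℕ) :
    g ζ = ζ ^ a ↔ (p : ℤ_[p]) ^ n ∣ (cyclotomicCharacter Ω p g : ℤ_[p]) - a := by
  have hi : ∀ i, HasEnoughRootsOfUnity Ω (p ^ i) := fun i => by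
    have : NeZero ((p ^ i : ℕ) : Ω) := ⟨by exact_mod_cast pow_ne_zero i hp.out.ne_zero⟩
    infer_instance
  have h1 := cyclotomicCharacter.spec p (n := n) g ζ hζ.pow_eq_one
  have : NeZero (p ^ n) := ⟨pow_ne_zero _ hp.out.ne_zero⟩
  rw [h1, ← CFData.toZModPow_eq_zero_iff, map_sub, map_natCast, sub_eq_zero]
  set c := PadicInt.toZModPow n (cyclotomicCharacter Ω p g : ℤ_[p]) with hc
  have h2 : c = (a : ZMod (p ^ n)) ↔ c.val ≡ a [MOD p ^ n] := by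
    rw [← ZMod.natCast_eq_natCast_iff, ZMod.natCast_zmod_val]
  rw [h2]
  have h3 : ζ ^ a = ζ ^ (a % p ^ n) := by
    conv_lhs => rw [← Nat.mod_add_div a (p ^ n), pow_add, pow_mul, hζ.pow_eq_one, one_pow, mul_one]
  rw [h3]
  constructor
  · intro h
    have h4 := hζ.pow_inj (ZMod.val_lt c) (Nat.mod_lt _ (NeZero.pos _)) h
    rw [Nat.ModEq, ← h4, Nat.mod_eq_of_lt (ZMod.val_lt c)]
  · intro h
    rw [Nat.ModEq, Nat.mod_eq_of_lt (ZMod.val_lt c)] at h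
    rw [h]

end general

variable {l : ℕ} [hl : Fact l.Prime] {p : ℕ} [hp : Fact p.Prime]

variable (p) in
/-- the cyclotomic character -/
noncomputable def cyc : Gal(PadicAlgCl l/ℚ_[l]) →* ℤ_[p]ˣ where
  toFun g := cyclotomicCharacter (PadicAlgCl l) p g.toRingEquiv
  map_one' := by
    exact map_one (cyclotomicCharacter (PadicAlgCl l) p)
  map_mul' g h := by
    exact map_mul (cyclotomicCharacter (PadicAlgCl l) p) g.toRingEquiv h.toRingEquiv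

theorem cyc_apply_iff {n : ℕ} {ζ : PadicAlgCl l} (hζ : IsPrimitiveRoot ζ (p ^ n))
    (g : Gal(PadicAlgCl l/ℚ_[l])) (a : ℕ) :
    g ζ = ζ ^ a ↔ (p : ℤ_[p]) ^ n ∣ (cyc p g : ℤ_[p]) - a :=
  cyc_iff hζ g.toRingEquiv a

variable (p) in
/-- the cyclotomic `ℤ_p`-extension -/
noncomputable def dc (g : Gal(PadicAlgCl l/ℚ_[l])) : ℤ_[p] := lam (cyc p g)

theorem dc_mul (hp2 : p ≠ 2) (g h : Gal(PadicAlgCl l/ℚ_[l])) : dc p (g * h) = dc p g + dc p h := by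
  rw [dc, map_mul, lam_mul hp2]
  rfl

variable (l p) in
/-- the cyclotomic character modulo `p ^ n` -/
noncomputable def cm (n : ℕ) : Gal(PadicAlgCl l/ℚ_[l]) →* (ZMod (p ^ n))ˣ :=
  (Units.map (PadicInt.toZModPow (p := p) n).toMonoidHom).comp (cyc p)

theorem mem_ker_cm {n : ℕ} {g : Gal(PadicAlgCl l/ℚ_[l])} :
    g ∈ (cm l p n).ker ↔ (p : ℤ_[p]) ^ n ∣ (cyc p g : ℤ_[p]) - 1 := by
  rw [MonoidHom.mem_ker, ← CFData.toZModPow_eq_zero_iff, map_sub, map_one, sub_eq_zero,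
    Units.ext_iff]
  exact Iff.rfl

theorem mem_ker_cm' {n : ℕ} {ζ : PadicAlgCl l} (hζ : IsPrimitiveRoot ζ (p ^ n))
    {g : Gal(PadicAlgCl l/ℚ_[l])} : g ∈ (cm l p n).ker ↔ g ζ = ζ := by
  rw [mem_ker_cm]
  have := cyc_apply_iff (l := l) (p := p) hζ g 1
  rw [pow_one, Nat.cast_one] at this
  exact this.symm

theorem isOpen_ker_cm (n : ℕ) : (LF l).IsOpen (cm l p n).ker := by
  obtain ⟨ζ, hζ⟩ := exists_prim (p := p) (Ω := PadicAlgCl l) n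
  have hint : IsIntegral ℚ_[l] ζ := Algebra.IsIntegral.isIntegral ζ
  have := adjoin.finiteDimensional hint
  refine (fam_isOpen_of_finite (k := ℚ_[l]) (Ω := PadicAlgCl l) ℚ_[l]⟮ζ⟯).mono fun u hu => ?_
  rw [mem_ker_cm' hζ]
  exact hu ⟨ζ, mem_adjoin_simple_self ℚ_[l] _⟩

theorem dvd_dc_of_mem_ker (hp2 : p ≠ 2) {n : ℕ} {g : Gal(PadicAlgCl l/ℚ_[l])}
    (hg : g ∈ (cm l p (n + 1)).ker) : (p : ℤ_[p]) ^ n ∣ dc p g := by
  rw [dc, pow_dvd_lam_iff hp2]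
  exact (mem_ker_cm.mp hg).trans (sub_one_dvd_pow_sub_one _ _)

theorem dc_sm (hp2 : p ≠ 2) (n : ℕ) : ∃ U ∈ LF l, ∀ u ∈ U, (p : ℤ_[p]) ^ n ∣ dc (l := l) p u := by
  obtain ⟨U, hU, hUle⟩ := isOpen_ker_cm (l := l) (p := p) (n + 1)
  exact ⟨U, hU, fun u hu => dvd_dc_of_mem_ker hp2 (hUle hu)⟩

theorem lam_congr (hp2 : p ≠ 2) {x y : ℤ_[p]ˣ} {n : ℕ}
    (h : (p : ℤ_[p]) ^ (n + 1) ∣ (x : ℤ_[p]) - y) : (p : ℤ_[p]) ^ n ∣ lam x - lam y := by
  have h1 : lam x - lam y = lam (x * y⁻¹) := by rw [lam_mul hp2, lam_inv hp2, sub_eq_add_neg]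
  rw [h1, pow_dvd_lam_iff hp2]
  refine dvd_trans ?_ (sub_one_dvd_pow_sub_one _ _)
  rw [Units.val_mul]
  have h2 : (x : ℤ_[p]) * ((y⁻¹ : ℤ_[p]ˣ) : ℤ_[p]) - 1 =
      ((x : ℤ_[p]) - y) * ((y⁻¹ : ℤ_[p]ˣ) : ℤ_[p]) := by
    rw [sub_mul, Units.mul_inv]
  rw [h2]
  exact h.mul_right _

section ram

/-! ### `l = p` -/

theorem norm_one_sub_le {N : ℕ} (hN : N ≠ 0) {ζ : PadicAlgCl l} (hζ : ζ ^ N = 1) (i : ℕ) :
    ‖1 - ζ ^ i‖ ≤ ‖1 - ζ‖ := by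
  have h1 : 1 - ζ ^ i = (∑ j ∈ Finset.range i, ζ ^ j) * (1 - ζ) := by
    have := geom_sum_mul ζ i
    linear_combination this
  rw [h1, norm_mul]
  have h2 : ‖∑ j ∈ Finset.range i, ζ ^ j‖ ≤ 1 := by
    have h3 : ∑ j ∈ Finset.range i, ζ ^ j ∈ OO l := by
      apply sum_mem
      intro j _
      apply pow_mem
      rw [mem_OO, norm_of_pow_eq_one hN hζ]
    exact mem_OO.mp h3
  calc _ ≤ 1 * ‖1 - ζ‖ := by gcongr
    _ = _ := one_mul _

theorem norm_one_sub_eq {N : ℕ} (hN : N ≠ 0) {ζ μ : PadicAlgCl l} (hζ : IsPrimitiveRoot ζ N)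
    (hμ : IsPrimitiveRoot μ N) : ‖1 - μ‖ = ‖1 - ζ‖ := by
  have : NeZero N := ⟨hN⟩
  apply le_antisymm
  · obtain ⟨i, _, rfl⟩ := hζ.eq_pow_of_pow_eq_one hμ.pow_eq_one
    exact norm_one_sub_le hN hζ.pow_eq_one i
  · obtain ⟨i, _, rfl⟩ := hμ.eq_pow_of_pow_eq_one hζ.pow_eq_one
    exact norm_one_sub_le hN hμ.pow_eq_one i

theorem prod_one_sub (n : ℕ) {ζ : PadicAlgCl p} (hζ : IsPrimitiveRoot ζ (p ^ (n + 1))) :
    ∏ μ ∈ primitiveRoots (p ^ (n + 1)) (PadicAlgCl p), (1 - μ) = (p : PadicAlgCl p) := by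
  have h1 := Polynomial.eval_one_cyclotomic_prime_pow (R := PadicAlgCl p) (p := p) n
  rw [Polynomial.cyclotomic_eq_prod_X_sub_primitiveRoots hζ, Polynomial.eval_prod] at h1
  rw [← h1]
  refine Finset.prod_congr rfl fun μ _ => ?_
  simp

theorem norm_one_sub_pow (n : ℕ) {ζ : PadicAlgCl p} (hζ : IsPrimitiveRoot ζ (p ^ (n + 1))) :
    ‖1 - ζ‖ ^ Nat.totient (p ^ (n + 1)) = (p : ℝ)⁻¹ := by
  have h1 := congrArg norm (prod_one_sub n hζ)
  rw [norm_l, norm_prod] at h1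
  rw [← h1, Finset.prod_congr rfl (fun μ hμ => norm_one_sub_eq
    (pow_ne_zero _ hp.out.ne_zero) hζ ((mem_primitiveRoots (pow_pos hp.out.pos _)).mp hμ)),
    Finset.prod_const, hζ.card_primitiveRoots]

theorem one_sub_ne_zero (n : ℕ) {ζ : PadicAlgCl p} (hζ : IsPrimitiveRoot ζ (p ^ (n + 1))) :
    1 - ζ ≠ 0 := by
  intro h
  have h1 := norm_one_sub_pow n hζ
  rw [h, norm_zero, zero_pow (Nat.totient_pos.mpr (pow_pos hp.out.pos _)).ne'] at h1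
  have : (0 : ℝ) < (p : ℝ)⁻¹ := inv_pos.mpr l_pos
  linarith

theorem one_sub_mem (n : ℕ) {ζ : PadicAlgCl p} (hζ : IsPrimitiveRoot ζ (p ^ (n + 1))) :
    1 - ζ ∈ fld (cm p p (n + 1)).ker := by
  rw [mem_fld]
  intro g hg
  rw [map_sub, map_one, (mem_ker_cm' hζ).mp hg]

theorem index_ker_cm (n : ℕ) : (cm p p (n + 1)).ker.index = Nat.totient (p ^ (n + 1)) := by
  obtain ⟨ζ, hζ⟩ := exists_prim (p := p) (Ω := PadicAlgCl p) (n + 1)
  have : NeZero (p ^ (n + 1)) := ⟨pow_ne_zero _ hp.out.ne_zero⟩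
  have h0 : (cm p p (n + 1)).ker.index ∣ Nat.totient (p ^ (n + 1)) := by
    rw [Subgroup.index_ker, ← ZMod.card_units_eq_totient, ← Nat.card_eq_fintype_card]
    exact Subgroup.card_subgroup_dvd_card _
  apply Nat.dvd_antisymm h0
  have hU := isOpen_ker_cm (l := p) (p := p) (n + 1)
  have h1 := VU_spec hU (toFF (one_sub_mem n hζ) (one_sub_ne_zero n hζ))
  rw [uval_toFF] at h1
  set k := VU hU (toFF (one_sub_mem n hζ) (one_sub_ne_zero n hζ)) with hk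
  have h2 : ((p : ℝ) ^ (-k)) ^ Nat.totient (p ^ (n + 1)) =
      ((p : ℝ)⁻¹) ^ (cm p p (n + 1)).ker.index := by
    rw [← h1, ← norm_one_sub_pow n hζ, ← pow_mul, ← pow_mul, mul_comm]
  rw [inv_pow, ← zpow_natCast, ← zpow_natCast, ← zpow_mul, ← zpow_neg] at h2
  have h3 := zpow_right_injective₀ (l_pos (l := p)) (one_lt_l (l := p)).ne' h2
  have h4 : ((cm p p (n + 1)).ker.index : ℤ) = Nat.totient (p ^ (n + 1)) * k := by linarith
  exact Int.natCast_dvd_natCast.mp ⟨k, h4⟩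

theorem cm_surjective (n : ℕ) : Function.Surjective (cm p p (n + 1)) := by
  have : NeZero (p ^ (n + 1)) := ⟨pow_ne_zero _ hp.out.ne_zero⟩
  rw [← MonoidHom.range_eq_top]
  apply Subgroup.eq_top_of_card_eq
  rw [← Subgroup.index_ker, index_ker_cm, Nat.card_eq_fintype_card, ZMod.card_units_eq_totient]

theorem exists_dc (hp2 : p ≠ 2) : ∃ g : Gal(PadicAlgCl p/ℚ_[p]), ¬ (p : ℤ_[p]) ∣ dc p g := by
  obtain ⟨g, hg⟩ := cm_surjective (p := p) 1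
    (Units.map (PadicInt.toZModPow (p := p) (1 + 1)).toMonoidHom
      (unitNat (p := p) (l := 1 + p) (by simp)))
  refine ⟨g, fun h => exists_lam_unit hp2 ?_⟩
  have h1 : (p : ℤ_[p]) ^ (1 + 1) ∣ (unitNat (p := p) (l := 1 + p) (by simp) : ℤ_[p]) - cyc p g := by
    rw [← CFData.toZModPow_eq_zero_iff, map_sub, sub_eq_zero]
    exact (congrArg Units.val hg).symm
  have h2 := lam_congr hp2 h1
  rw [pow_one] at h2
  have h3 := dvd_add h2 h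
  rwa [dc, sub_add_cancel] at h3

end ram

end Fermat.Agent.LocalCFT
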