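import Fermat.Agent.LocalCFT.CycP

/-!
# The class formation of `ℚ_l` with the cyclotomic `ℤ_p`-extension
-/

set_option autoImplicit false
set_option linter.unusedSectionVars false
set_option linter.style.haveILetI false

namespace Fermat.Agent.LocalCFT

open Fermat.Agent.Coh Fermat.Agent.GalD Fermat.Agent.PLog Module IntermediateField

variable {l : ℕ} [hl : Fact l.Prime] {p : ℕ} [hp : Fact p.Prime]

theorem dc_eq (hp2 : p ≠ 2) (h : l.Coprime p) (g : Gal(PadicAlgCl l/ℚ_[l])) :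
    dc p g = lam (unitNat h) * dl p g := by
  apply PLog.eq_of_forall_dvd
  intro n
  have hm : p ^ n * (p - 1) ≠ 0 :=
    mul_ne_zero (ppow_ne p n) (by have := hp.out.two_le; omega)
  obtain ⟨ζ, hζ⟩ := exists_prim (p := p) (Ω := PadicAlgCl l) (n + 1)
  set F := fexp hm g with hF
  have hN : p ^ (n + 1) ≠ 0 := ppow_ne p _
  have hcop : (p ^ (n + 1)).Coprime l := Nat.Coprime.pow_left _ h.symm
  have hζ1 : ‖ζ‖ = 1 := norm_of_pow_eq_one hN hζ.pow_eq_one
  have hg1 : g ζ = ζ ^ (l ^ F) := by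
    have h1 : ζ ∈ OO l := mem_OO.mpr hζ1.le
    have h2 : rd (⟨ζ, h1⟩ : OO l) ∈ FF' l (p ^ n * (p - 1)) := by
      rw [mem_FF', ← map_pow]
      congr 1
      apply Subtype.ext
      change ζ ^ _ = ζ
      have h3 : l ^ (p ^ n * (p - 1)) ≡ 1 [MOD p ^ (n + 1)] := by
        have := Nat.ModEq.pow_totient (Nat.Coprime.pow_right (n + 1) h)
        rwa [Nat.totient_prime_pow_succ hp.out] at this
      have h4 : 1 ≤ l ^ (p ^ n * (p - 1)) := Nat.one_le_pow _ _ hl.out.pos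
      obtain ⟨c, hc⟩ := (Nat.modEq_iff_dvd' h4).mp h3.symm
      have h5 : l ^ (p ^ n * (p - 1)) = p ^ (n + 1) * c + 1 := by omega
      rw [h5, pow_succ, pow_mul, hζ.pow_eq_one, one_pow, one_mul]
    have h3 := fexp_spec hm g h2
    rw [gbar_rd, ← map_pow] at h3
    have h4 := (rd_eq_iff _ _).mp h3
    have h5 : ‖g ζ - ζ ^ (l ^ F)‖ < 1 := h4
    have h6 : ζ ^ (l ^ F) ≠ 0 := pow_ne_zero _ (hζ.ne_zero hN)
    have h7 : g ζ / ζ ^ (l ^ F) = 1 := by
      apply eq_one_of_pow hcop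
      · rw [div_pow, ← map_pow, hζ.pow_eq_one, map_one, ← pow_mul, mul_comm, pow_mul,
          hζ.pow_eq_one, one_pow, div_one]
      · rw [div_sub_one h6, norm_div, norm_pow, hζ1, one_pow, div_one]
        exact h5
    exact (div_eq_one_iff_eq h6).mp h7
  have h1 := (cyc_apply_iff hζ g _).mp hg1
  have h2 : ((l ^ F : ℕ) : ℤ_[p]) = ((unitNat h ^ F : ℤ_[p]ˣ) : ℤ_[p]) := by
    rw [Units.val_pow_eq_pow_val, coe_unitNat, Nat.cast_pow]
  rw [h2] at h1
  have h3 := lam_congr hp2 h1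
  rw [lam_pow hp2] at h3
  have h4 : (p : ℤ_[p]) ^ n ∣ (F : ℤ_[p]) - (fexp (ppow_ne p n) g : ℤ_[p]) := by
    have h5 := Nat.modEq_iff_dvd.mp (fexp_congr (ppow_ne p n) hm (Dvd.intro _ rfl) g).symm
    obtain ⟨c, hc⟩ := h5
    refine ⟨(c : ℤ_[p]), ?_⟩
    have h6 : (((F : ℕ) : ℤ) : ℤ_[p]) - (((fexp (ppow_ne p n) g : ℕ) : ℤ) : ℤ_[p]) =
        (((p ^ n : ℕ) : ℤ) : ℤ_[p]) * (c : ℤ_[p]) := by
      rw [← Int.cast_sub, hc]
      push_cast
      ring
    push_cast at h6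
    rw [← h6]
  have h5 := dl_spec p g n
  have h6 : dc p g - lam (unitNat h) * dl p g = (lam (cyc p g) - F * lam (unitNat h)) +
      lam (unitNat h) * ((F : ℤ_[p]) - (fexp (ppow_ne p n) g : ℤ_[p])) -
      lam (unitNat h) * (dl p g - (fexp (ppow_ne p n) g : ℤ_[p])) := by
    rw [dc]
    ring
  rw [h6]
  exact dvd_sub (dvd_add h3 (h4.mul_left _)) (h5.mul_left _)

theorem coprime_of_ne (h : l ≠ p) : l.Coprime p := (Nat.coprime_primes hl.out hp.out).mpr h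

/-- The class formation of `ℚ_l` with the cyclotomic `ℤ_p`-extension, `l ≠ p`. -/
noncomputable def cycCFl (hp2 : p ≠ 2) (h : l.Coprime p) : CFData p (LF l) (LU l) :=
  (localCF l p).scale (lam (unitNat h)).valuation
    (PadicInt.unitCoeff (lam_unitNat_ne_zero hp2 h hl.out.one_lt))

theorem factor_lam (hp2 : p ≠ 2) (h : l.Coprime p) :
    (p : ℤ_[p]) ^ (lam (unitNat h)).valuation *
      (PadicInt.unitCoeff (lam_unitNat_ne_zero hp2 h hl.out.one_lt) : ℤ_[p]) =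
        lam (unitNat h) := by
  rw [mul_comm]
  exact (PadicInt.unitCoeff_spec _).symm

theorem cycCFl_d (hp2 : p ≠ 2) (h : l.Coprime p) : (cycCFl hp2 h).d = dc (l := l) p := by
  funext g
  rw [dc_eq hp2 h, ← factor_lam hp2 h]
  rfl

theorem cycCFl_v (hp2 : p ≠ 2) (h : l.Coprime p) (U : Subgroup Gal(PadicAlgCl l/ℚ_[l]))
    (hU : (LF l).IsOpen U) (a : ↥(FF (LU l) U)) :
    (p : ℤ_[p]) ^ (cycCFl hp2 h).f U * (cycCFl hp2 h).v U a =
      (VU top_open (nmr (LU l) le_top hU a) : ℤ_[p]) * lam (unitNat h) := by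
  rw [VU_nmr le_top hU top_open, ← vl_spec p hU, ← factor_lam hp2 h]
  have h1 : (cycCFl hp2 h).f U = fU p U + (lam (unitNat h)).valuation := rfl
  have h2 : (cycCFl hp2 h).v U a =
      (PadicInt.unitCoeff (lam_unitNat_ne_zero hp2 h hl.out.one_lt) : ℤ_[p]) *
        (localCF l p).v U a := rfl
  have h3 : (localCF l p).v U a = vl p hU a := by
    classical
    change (if hU : (LF l).IsOpen U then vl p hU else 0) a = _
    rw [dif_pos hU]
  rw [h1, h2, h3, pow_add]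
  ring

variable (l p) in
/-- The valuation on `ℚ_lˣ` attached to the cyclotomic `ℤ_p`-extension. -/
noncomputable def v0 (hp2 : p ≠ 2) :
    ↥(FF (LU l) (⊤ : Subgroup Gal(PadicAlgCl l/ℚ_[l]))) →+ ℤ_[p] :=
  if h : l = p then by
    subst h
    exact v0p hp2
  else (AddMonoidHom.mulRight (lam (unitNat (coprime_of_ne h)))).comp
    ((Int.castAddHom ℤ_[p]).comp (VUhom top_open))

theorem v0_self (hp2 : p ≠ 2) (b : ↥(FF (LU p) (⊤ : Subgroup Gal(PadicAlgCl p/ℚ_[p])))) :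
    v0 p p hp2 b = - lam (upart b) := by
  rw [v0, dif_pos rfl]
  rfl

theorem v0_of_ne (hp2 : p ≠ 2) (h : l ≠ p)
    (b : ↥(FF (LU l) (⊤ : Subgroup Gal(PadicAlgCl l/ℚ_[l])))) :
    v0 l p hp2 b = (VU top_open b : ℤ_[p]) * lam (unitNat (coprime_of_ne h)) := by
  rw [v0, dif_neg h]
  rfl

variable (l p) in
theorem exists_cycCF (hp2 : p ≠ 2) : ∃ D : CFData p (LF l) (LU l), D.d = dc (l := l) p ∧
    ∀ (U : Subgroup Gal(PadicAlgCl l/ℚ_[l])) (hU : (LF l).IsOpen U) (a : ↥(FF (LU l) U)),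
      (p : ℤ_[p]) ^ D.f U * D.v U a = v0 l p hp2 (nmr (LU l) le_top hU a) := by
  by_cases h : l = p
  · subst h
    refine ⟨cycCFp hp2, rfl, fun U hU a => ?_⟩
    rw [v0_self]
    exact cycCFp_v hp2 U hU a
  · refine ⟨cycCFl hp2 (coprime_of_ne h), cycCFl_d hp2 _, fun U hU a => ?_⟩
    rw [v0_of_ne hp2 h]
    exact cycCFl_v hp2 _ U hU a

variable (l p) in
/-- **The class formation of `ℚ_l` with the cyclotomic `ℤ_p`-extension.** -/
noncomputable def cycCF (hp2 : p ≠ 2) : CFData p (LF l) (LU l) := (exists_cycCF l p hp2).choose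

theorem cycCF_d (hp2 : p ≠ 2) : (cycCF l p hp2).d = dc (l := l) p :=
  (exists_cycCF l p hp2).choose_spec.1

theorem cycCF_v (hp2 : p ≠ 2) (U : Subgroup Gal(PadicAlgCl l/ℚ_[l])) (hU : (LF l).IsOpen U)
    (a : ↥(FF (LU l) U)) :
    (p : ℤ_[p]) ^ (cycCF l p hp2).f U * (cycCF l p hp2).v U a =
      v0 l p hp2 (nmr (LU l) le_top hU a) :=
  (exists_cycCF l p hp2).choose_spec.2 U hU a

end Fermat.Agent.LocalCFT
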