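import Mathlib.GroupTheory.Index
import Mathlib.Tactic.LinearCombination
import Mathlib.Tactic.Ring

/-!
# Herbrand quotients of commutative groups (index form)
-/

set_option autoImplicit false

namespace Fermat.Agent.LocalCFT

open Subgroup

variable {A : Type*} [CommGroup A]

/-- index of a subgroup through an endomorphism -/
theorem index_eq_relIndex_mul (f : A →* A) (B : Subgroup A) :
    B.index = (B.map f).relIndex f.range * (B ⊓ f.ker).relIndex f.ker := by
  have h1 : (B.map f).relIndex f.range = (B ⊔ f.ker).index := by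
    rw [MonoidHom.range_eq_map, relIndex_map_map, top_sup_eq, relIndex_top_right]
  have h2 : (B ⊓ f.ker).relIndex f.ker = B.relIndex (B ⊔ f.ker) := by
    rw [inf_relIndex_right, sup_comm, relIndex_sup_right]
  rw [h1, h2, mul_comm, relIndex_mul_index le_sup_left]

/-- Invariance of the Herbrand quotient under passage to a subgroup of finite index: if
`q(B) = a / b` then `q(A) = a / b`. -/
theorem herbrand_mul (f g : A →* A) (hfg : ∀ x, f (g x) = 1) (hgf : ∀ x, g (f x) = 1)
    (B : Subgroup A) (hf : B.map f ≤ B) (hg : B.map g ≤ B) (hB : B.index ≠ 0) :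
    g.range.relIndex f.ker * (B.map f).relIndex (B ⊓ g.ker) =
      (B.map g).relIndex (B ⊓ f.ker) * f.range.relIndex g.ker := by
  have hfk : f.range ≤ g.ker := by rintro _ ⟨x, rfl⟩; exact hgf x
  have hgk : g.range ≤ f.ker := by rintro _ ⟨x, rfl⟩; exact hfg x
  have hBf : B.map f ≤ f.range := by rintro _ ⟨x, -, rfl⟩; exact ⟨x, rfl⟩
  have hBg : B.map g ≤ g.range := by rintro _ ⟨x, -, rfl⟩; exact ⟨x, rfl⟩
  have e1 := index_eq_relIndex_mul f B
  have e2 := index_eq_relIndex_mul g B
  have e3 : (B.map g).relIndex g.range * g.range.relIndex f.ker =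
      (B.map g).relIndex (B ⊓ f.ker) * (B ⊓ f.ker).relIndex f.ker := by
    rw [relIndex_mul_relIndex _ _ _ hBg hgk,
      relIndex_mul_relIndex _ _ _ (le_inf hg (hBg.trans hgk)) inf_le_right]
  have e4 : (B.map f).relIndex f.range * f.range.relIndex g.ker =
      (B.map f).relIndex (B ⊓ g.ker) * (B ⊓ g.ker).relIndex g.ker := by
    rw [relIndex_mul_relIndex _ _ _ hBf hfk,
      relIndex_mul_relIndex _ _ _ (le_inf hf (hBf.trans hfk)) inf_le_right]
  -- cancel `B.index`
  apply Nat.eq_of_mul_eq_mul_right (Nat.pos_of_ne_zero hB)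
  calc g.range.relIndex f.ker * (B.map f).relIndex (B ⊓ g.ker) * B.index
      = ((B.map g).relIndex g.range * g.range.relIndex f.ker) *
        ((B.map f).relIndex (B ⊓ g.ker) * (B ⊓ g.ker).relIndex g.ker) := by rw [e2]; ring
    _ = ((B.map g).relIndex (B ⊓ f.ker) * (B ⊓ f.ker).relIndex f.ker) *
        ((B.map f).relIndex f.range * f.range.relIndex g.ker) := by rw [e3, e4]
    _ = (B.map g).relIndex (B ⊓ f.ker) * f.range.relIndex g.ker * B.index := by rw [e1]; ring

/-- Weakly projective modules have trivial Tate cohomology for a cyclic group: the invariants are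
norms. -/
theorem invariant_eq_norm {M : Type*} [AddCommGroup M] (s π : M →+ M) (p : ℕ)
    (hs : ∀ x, s^[p] x = x)
    (hπ : ∀ x, ∑ i ∈ Finset.range p, s^[i] (π (s^[p - i] x)) = x) {x : M} (hx : s x = x) :
    ∑ i ∈ Finset.range p, s^[i] (π x) = x := by
  have h : ∀ n, s^[n] x = x := fun n => Function.iterate_fixed hx n
  simpa only [h] using hπ x

/-- Weakly projective modules have trivial Tate cohomology for a cyclic group: elements of norm
zero. -/
theorem exists_sub_of_norm_eq_zero {M : Type*} [AddCommGroup M] (s π : M →+ M) (p : ℕ)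
    (hs : ∀ x, s^[p] x = x)
    (hπ : ∀ x, ∑ i ∈ Finset.range p, s^[i] (π (s^[p - i] x)) = x) {x : M}
    (hx : ∑ i ∈ Finset.range p, s^[i] x = 0) :
    s (∑ i ∈ Finset.range p, s^[i] (π (∑ j ∈ Finset.range (p - i), s^[j] x))) -
      ∑ i ∈ Finset.range p, s^[i] (π (∑ j ∈ Finset.range (p - i), s^[j] x)) = x := by
  rcases Nat.eq_zero_or_pos p with rfl | hp
  · simpa using hπ x
  have hsum : ∀ (n : ℕ) (h : ℕ → M), s (∑ i ∈ Finset.range n, h i) =
      ∑ i ∈ Finset.range n, s (h i) := fun n h => map_sum s h _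
  set c : ℕ → M := fun n => ∑ j ∈ Finset.range n, s^[j] x with hc
  have h1 : s (∑ i ∈ Finset.range p, s^[i] (π (c (p - i)))) =
      ∑ i ∈ Finset.range p, s^[i] (π (c (p - i + 1))) := by
    rw [hsum]
    obtain ⟨m, rfl⟩ : ∃ m, p = m + 1 := ⟨p - 1, by omega⟩
    rw [Finset.sum_range_succ, Finset.sum_range_succ']
    congr 1
    · refine Finset.sum_congr rfl fun i hi => ?_
      have hi' := Finset.mem_range.mp hi
      rw [← Function.iterate_succ_apply' s i, show m + 1 - i = m + 1 - (i + 1) + 1 by omega]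
    · rw [← Function.iterate_succ_apply' s m, hs]
      have e1 : c (m + 1 - m) = x := by simp [hc]
      have e2 : c (m + 1 - 0 + 1) = x := by
        simp only [hc, Nat.sub_zero]
        rw [Finset.sum_range_succ, hx, zero_add, hs]
      simp only [e1, e2, Function.iterate_zero, id_eq]
  rw [h1, ← Finset.sum_sub_distrib]
  conv_rhs => rw [← hπ x]
  refine Finset.sum_congr rfl fun i _ => ?_
  rw [← iterate_map_sub s, ← map_sub π]
  congr 2
  simp only [hc]
  rw [Finset.sum_range_succ, add_sub_cancel_left]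

end Fermat.Agent.LocalCFT
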