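import Mathlib
import Fermat.Agent.LocalCFT.Herbrand

/-!
# A small lattice with trivial cohomology from the normal basis theorem
-/

set_option autoImplicit false

namespace Fermat.Agent.LocalCFT

open Module Filter Topology

section NB

variable (K L : Type) [Field K] [Field L] [Algebra K L] [FiniteDimensional K L] [IsGalois K L]

theorem normalBasis_repr_inv (g h : Gal(L/K)) (x : L) :
    (IsGalois.normalBasis K L).repr (g⁻¹ x) h = (IsGalois.normalBasis K L).repr x (g * h) := by
  classical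
  set b := IsGalois.normalBasis K L with hb
  have h1 : (b.coord h) ∘ₗ (g⁻¹ : Gal(L/K)).toLinearMap = b.coord (g * h) := by
    apply b.ext
    intro k
    have h2 : (g⁻¹ : Gal(L/K)) (b k) = b (g⁻¹ * k) := by
      rw [hb, IsGalois.normalBasis_apply k, IsGalois.normalBasis_apply (g⁻¹ * k)]
      rfl
    simp only [LinearMap.comp_apply, AlgEquiv.toLinearMap_apply, h2, Basis.coord_apply,
      Basis.repr_self, Finsupp.single_apply]
    congr 1
    rw [eq_iff_iff, inv_mul_eq_iff_eq_mul]
  exact LinearMap.congr_fun h1 x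

/-- projection to the first component -/
noncomputable def nbProj : L →ₗ[K] L :=
  ((IsGalois.normalBasis K L).coord 1).smulRight (IsGalois.normalBasis K L 1)

theorem sum_nbProj (x : L) : ∑ g : Gal(L/K), g (nbProj K L (g⁻¹ x)) = x := by
  conv_rhs => rw [← (IsGalois.normalBasis K L).sum_repr x]
  refine Finset.sum_congr rfl fun g _ => ?_
  rw [nbProj, LinearMap.smulRight_apply, Basis.coord_apply, normalBasis_repr_inv, mul_one, map_smul,
    ← IsGalois.normalBasis_apply]

variable {K L}

omit [FiniteDimensional K L] [IsGalois K L] in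
theorem iterate_eq_pow (σ : Gal(L/K)) (n : ℕ) (x : L) : (σ : L → L)^[n] x = (σ ^ n) x := by
  induction n generalizing x with
  | zero => rfl
  | succ n ih => rw [Function.iterate_succ_apply', ih, pow_succ', AlgEquiv.mul_apply]

omit [IsGalois K L] in
theorem sum_range_eq {M : Type*} [AddCommMonoid M] {σ : Gal(L/K)}
    (hσ : ∀ x, x ∈ Subgroup.zpowers σ) {p : ℕ} (hp : orderOf σ = p) (F : Gal(L/K) → M) :
    ∑ i ∈ Finset.range p, F (σ ^ i) = ∑ g : Gal(L/K), F g := by
  classical
  rw [← IsCyclic.image_range_orderOf hσ, Finset.sum_image, hp]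
  intro i hi j hj hij
  rw [Finset.mem_coe, Finset.mem_range] at hi hj
  exact pow_injOn_Iio_orderOf hi hj hij

omit [IsGalois K L] in
theorem prod_range_eq {M : Type*} [CommMonoid M] {σ : Gal(L/K)}
    (hσ : ∀ x, x ∈ Subgroup.zpowers σ) {p : ℕ} (hp : orderOf σ = p) (F : Gal(L/K) → M) :
    ∏ i ∈ Finset.range p, F (σ ^ i) = ∏ g : Gal(L/K), F g := by
  classical
  rw [← IsCyclic.image_range_orderOf hσ, Finset.prod_image, hp]
  intro i hi j hj hij
  rw [Finset.mem_coe, Finset.mem_range] at hi hj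
  exact pow_injOn_Iio_orderOf hi hj hij

theorem sum_range_nbProj {σ : Gal(L/K)} (hσ : ∀ x, x ∈ Subgroup.zpowers σ) {p : ℕ}
    (hp : orderOf σ = p) (x : L) :
    ∑ i ∈ Finset.range p, (σ : L → L)^[i] (nbProj K L ((σ : L → L)^[p - i] x)) = x := by
  conv_rhs => rw [← sum_nbProj K L x, ← sum_range_eq hσ hp]
  refine Finset.sum_congr rfl fun i hi => ?_
  have hi' := Finset.mem_range.mp hi
  rw [iterate_eq_pow, iterate_eq_pow]
  congr 3
  rw [eq_inv_iff_mul_eq_one, ← pow_add, show p - i + i = p by omega, ← hp, pow_orderOf_eq_one]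

end NB

section Lattice

variable (K L : Type) [Field K] [NormedField L] [IsUltrametricDist L]
  [Algebra K L] [FiniteDimensional K L] [IsGalois K L]

/-- the lattice of elements with small coordinates in a normal basis -/
noncomputable def lat (r : ℝ) (hr : 0 < r) : AddSubgroup L where
  carrier := {x | ∀ g, ‖algebraMap K L ((IsGalois.normalBasis K L).repr x g)‖ ≤ r}
  zero_mem' := by intro g; simp [hr.le]
  add_mem' := by
    intro x y hx hy g
    rw [map_add, Finsupp.add_apply, map_add]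
    exact (IsUltrametricDist.norm_add_le_max _ _).trans (max_le (hx g) (hy g))
  neg_mem' := by
    intro x hx g
    rw [map_neg, Finsupp.neg_apply, map_neg, norm_neg]
    exact hx g

variable {K L}

theorem mem_lat {r : ℝ} (hr : 0 < r) {x : L} : x ∈ lat K L r hr ↔
    ∀ g, ‖algebraMap K L ((IsGalois.normalBasis K L).repr x g)‖ ≤ r := Iff.rfl

theorem gal_mem_lat {r : ℝ} (hr : 0 < r) (σ : Gal(L/K)) {x : L} (hx : x ∈ lat K L r hr) :
    σ x ∈ lat K L r hr := by
  intro g
  have := normalBasis_repr_inv K L σ⁻¹ g x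
  rw [inv_inv] at this
  rw [this]
  exact hx _

theorem nbProj_mem_lat {r : ℝ} (hr : 0 < r) {x : L} (hx : x ∈ lat K L r hr) :
    nbProj K L x ∈ lat K L r hr := by
  classical
  intro g
  rw [nbProj, LinearMap.smulRight_apply, Basis.coord_apply, map_smul, Basis.repr_self,
    Finsupp.smul_apply, Finsupp.single_apply, smul_eq_mul, mul_ite, mul_one, mul_zero]
  split_ifs
  · exact hx 1
  · simp [hr.le]

theorem lat_mem_nhds (l : ℕ) [hl : Fact l.Prime] [Algebra ℚ_[l] K]
    [NormedAlgebra ℚ_[l] L] [FiniteDimensional ℚ_[l] L] [IsScalarTower ℚ_[l] K L] {r : ℝ} (hr : 0 < r) : (lat K L r hr : Set L) ∈ 𝓝 (0 : L) := by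
  have h1 : ∀ g : Gal(L/K), {x : L | ‖algebraMap K L ((IsGalois.normalBasis K L).repr x g)‖ < r} ∈
      𝓝 (0 : L) := by
    intro g
    let φ : L →ₗ[ℚ_[l]] L :=
      ((Algebra.linearMap K L) ∘ₗ ((IsGalois.normalBasis K L).coord g)).restrictScalars ℚ_[l]
    have hφ : Continuous φ := φ.continuous_of_finiteDimensional
    have h2 : ContinuousAt (fun x => ‖φ x‖) 0 := hφ.norm.continuousAt
    have h3 : (fun x => ‖φ x‖) 0 < r := by simpa using hr
    exact h2.eventually_lt continuousAt_const h3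
  have h2 : (⋂ g : Gal(L/K),
      {x : L | ‖algebraMap K L ((IsGalois.normalBasis K L).repr x g)‖ < r}) ∈ 𝓝 (0 : L) :=
    Filter.iInter_mem.mpr h1
  refine mem_of_superset h2 fun x hx g => ?_
  exact (Set.mem_iInter.mp hx g).le

theorem exists_lat_subset {s : Set L} (hs : s ∈ 𝓝 (0 : L)) :
    ∃ (r : ℝ) (hr : 0 < r), (lat K L r hr : Set L) ⊆ s := by
  obtain ⟨ε, hε, hεs⟩ := Metric.mem_nhds_iff.mp hs
  set b := IsGalois.normalBasis K L with hb
  set C : ℝ := ∑ g : Gal(L/K), ‖b g‖ with hC
  have hC0 : 0 ≤ C := Finset.sum_nonneg fun g _ => norm_nonneg _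
  have hr : 0 < ε / (C + 1) := div_pos hε (by positivity)
  refine ⟨ε / (C + 1), hr, fun x hx => hεs ?_⟩
  rw [mem_ball_zero_iff]
  have h1 : ‖x‖ ≤ ∑ g : Gal(L/K), (ε / (C + 1)) * ‖b g‖ := by
    conv_lhs => rw [← b.sum_repr x]
    refine (norm_sum_le _ _).trans (Finset.sum_le_sum fun g _ => ?_)
    rw [Algebra.smul_def, norm_mul]
    exact mul_le_mul_of_nonneg_right (hx g) (norm_nonneg _)
  rw [← Finset.mul_sum, ← hC] at h1
  refine h1.trans_lt ?_
  rw [div_mul_eq_mul_div, div_lt_iff₀ (by positivity)]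
  nlinarith

end Lattice

end Fermat.Agent.LocalCFT
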