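import Fermat.Agent.LocalCFT.Exp
import Fermat.Agent.LocalCFT.NormalBasis

/-!
# The norm index of cyclic extensions of local fields of characteristic zero
-/

set_option autoImplicit false

namespace Fermat.Agent.LocalCFT

open NormedSpace Module Filter Topology

section Gen

variable {l : ℕ} [hl : Fact l.Prime] {K L : Type} [Field K] [Algebra ℚ_[l] K]
  [NormedField L] [IsUltrametricDist L] [NormedAlgebra ℚ_[l] L] [FiniteDimensional ℚ_[l] L]
  [Algebra K L] [IsScalarTower ℚ_[l] K L] [FiniteDimensional K L] [IsGalois K L]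

/-- the multiplicative group `exp (M)` for a small lattice `M` -/
noncomputable def expLat {r : ℝ} (hr : 0 < r) {s : Set L}
    (hs1 : ∀ x ∈ s, ∀ y ∈ s, exp (x + y) = exp x * exp y)
    (hrs : (lat K L r hr : Set L) ⊆ s) : Subgroup Lˣ where
  carrier := {u | ∃ x ∈ lat K L r hr, exp x = (u : L)}
  one_mem' := ⟨0, zero_mem _, by simp [exp_zero]⟩
  mul_mem' := by
    rintro u v ⟨x, hx, hxu⟩ ⟨y, hy, hyv⟩
    exact ⟨x + y, add_mem hx hy, by rw [hs1 x (hrs hx) y (hrs hy), hxu, hyv, Units.val_mul]⟩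
  inv_mem' := by
    rintro u ⟨x, hx, hxu⟩
    refine ⟨-x, neg_mem hx, ?_⟩
    have := hs1 x (hrs hx) (-x) (hrs (neg_mem hx))
    rw [add_neg_cancel, exp_zero, hxu] at this
    rw [Units.val_inv_eq_inv_val]
    exact eq_inv_of_mul_eq_one_right this.symm

/-- the endomorphism `u ↦ σ u / u` -/
def sigDiv (σ : Gal(L/K)) : Lˣ →* Lˣ where
  toFun u := Units.map (σ : L →* L) u / u
  map_one' := by simp
  map_mul' u v := by rw [map_mul, mul_div_mul_comm]

/-- the norm as an endomorphism -/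
noncomputable def normEnd (K L : Type) [Field K] [Field L] [Algebra K L] : Lˣ →* Lˣ :=
  (Units.map (algebraMap K L : K →* L)).comp (Units.map (Algebra.norm K : L →* K))

omit [IsUltrametricDist L] in
theorem normEnd_apply (u : Lˣ) : (normEnd K L u : L) = ∏ g : Gal(L/K), g (u : L) := by
  rw [normEnd]
  simp [Algebra.norm_eq_prod_automorphisms]

theorem exp_sum_lat {r : ℝ} (hr : 0 < r) {s : Set L}
    (hs1 : ∀ x ∈ s, ∀ y ∈ s, exp (x + y) = exp x * exp y)
    (hrs : (lat K L r hr : Set L) ⊆ s) {ι : Type*} (t : Finset ι) (F : ι → L)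
    (hF : ∀ i ∈ t, F i ∈ lat K L r hr) : exp (∑ i ∈ t, F i) = ∏ i ∈ t, exp (F i) := by
  classical
  induction t using Finset.induction_on with
  | empty => simp [exp_zero]
  | insert a t ha ih =>
    rw [Finset.sum_insert ha, Finset.prod_insert ha, hs1 _ (hrs (hF a (Finset.mem_insert_self _ _)))
      _ (hrs (sum_mem fun i hi => hF i (Finset.mem_insert_of_mem hi))),
      ih fun i hi => hF i (Finset.mem_insert_of_mem hi)]

end Gen

section Main

variable (l : ℕ) [hl : Fact l.Prime] (K L : Type) [Field K] [Algebra ℚ_[l] K]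
  [NormedField L] [IsUltrametricDist L] [NormedAlgebra ℚ_[l] L] [FiniteDimensional ℚ_[l] L]
  [Algebra K L] [IsScalarTower ℚ_[l] K L] [FiniteDimensional K L] [IsGalois K L]

omit [IsUltrametricDist L] in
include l in
variable {L} in
/-- A subgroup of `Lˣ` containing a neighbourhood of `1` and an element of norm `< 1` has finite
index. -/
theorem index_ne_zero_of_nhds (B : Subgroup Lˣ) (hB : {x : L | ∃ u ∈ B, (u : L) = x} ∈ 𝓝 (1 : L))
    (ϖ : Lˣ) (hϖ : ‖(ϖ : L)‖ < 1) (hϖB : ϖ ∈ B) : B.index ≠ 0 := by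
  have : ProperSpace L := FiniteDimensional.proper ℚ_[l] L
  set S : Set L := {x | ‖(ϖ : L)‖ ≤ ‖x‖ ∧ ‖x‖ ≤ 1} with hS
  have hSc : IsCompact S := by
    have h1 : S = {x | ‖(ϖ : L)‖ ≤ ‖x‖} ∩ Metric.closedBall 0 1 := by
      ext x; simp [hS]
    rw [h1]
    exact (isCompact_closedBall (0 : L) 1).inter_left (isClosed_le continuous_const continuous_norm)
  have hϖ0 : 0 < ‖(ϖ : L)‖ := norm_pos_iff.mpr ϖ.ne_zero
  have hU : ∀ x ∈ S, {y : L | ∃ u ∈ B, x * (u : L) = y} ∈ 𝓝 x := by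
    intro x hx
    have hx0 : x ≠ 0 := norm_pos_iff.mp (lt_of_lt_of_le hϖ0 hx.1)
    have h2 : Tendsto (fun y : L => x⁻¹ * y) (𝓝 x) (𝓝 (1 : L)) := by
      have h3 : Continuous (fun y : L => x⁻¹ * y) := continuous_const.mul continuous_id
      have h4 := h3.tendsto x
      rwa [inv_mul_cancel₀ hx0] at h4
    filter_upwards [h2 hB] with y hy
    obtain ⟨u, hu, huy⟩ := hy
    exact ⟨u, hu, by rw [huy, mul_inv_cancel_left₀ hx0]⟩
  obtain ⟨t, htS, htc⟩ := hSc.elim_nhds_subcover (fun x => {y : L | ∃ u ∈ B, x * (u : L) = y}) hU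
  have hfin : Finite (Lˣ ⧸ B) := by
    classical
    -- representatives
    let f : {x // x ∈ t} → Lˣ ⧸ B := fun x => if h : (x : L) = 0 then 1 else
      QuotientGroup.mk (Units.mk0 (x : L) h)
    apply Finite.of_surjective f
    intro q
    obtain ⟨y, rfl⟩ := QuotientGroup.mk_surjective q
    -- move `y` to the annulus
    obtain ⟨n, hn1, hn2⟩ : ∃ n : ℤ, ‖(ϖ : L)‖ ≤ ‖((y * ϖ ^ n : Lˣ) : L)‖ ∧
        ‖((y * ϖ ^ n : Lˣ) : L)‖ ≤ 1 := by
      have hy0 : 0 < ‖(y : L)‖ := norm_pos_iff.mpr y.ne_zero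
      obtain ⟨n, hn⟩ := exists_mem_Ioc_zpow (x := ‖(y : L)‖) (y := ‖(ϖ : L)‖⁻¹) hy0
        ((one_lt_inv₀ hϖ0).mpr hϖ)
      refine ⟨n + 1, ?_, ?_⟩
      · rw [Units.val_mul, Units.val_zpow_eq_zpow_val, norm_mul, norm_zpow]
        have h1 := hn.1.le
        calc ‖(ϖ : L)‖ = (‖(ϖ : L)‖⁻¹) ^ n * ‖(ϖ : L)‖ ^ (n + 1) := by
              rw [inv_zpow, zpow_add_one₀ hϖ0.ne', inv_mul_cancel_left₀ (zpow_ne_zero _ hϖ0.ne')]
          _ ≤ ‖(y : L)‖ * ‖(ϖ : L)‖ ^ (n + 1) := by gcongr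
      · rw [Units.val_mul, Units.val_zpow_eq_zpow_val, norm_mul, norm_zpow]
        have h2 := hn.2
        calc ‖(y : L)‖ * ‖(ϖ : L)‖ ^ (n + 1) ≤ (‖(ϖ : L)‖⁻¹) ^ (n + 1) * ‖(ϖ : L)‖ ^ (n + 1) := by
              gcongr
          _ = 1 := by rw [inv_zpow, inv_mul_cancel₀ (zpow_ne_zero _ hϖ0.ne')]
    have h3 := htc (show ((y * ϖ ^ n : Lˣ) : L) ∈ S from ⟨hn1, hn2⟩)
    rw [Set.mem_iUnion₂] at h3
    obtain ⟨x, hx, u, hu, hxu⟩ := h3
    refine ⟨⟨x, hx⟩, ?_⟩
    have hx0 : x ≠ 0 := by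
      intro h
      rw [h, zero_mul] at hxu
      exact (y * ϖ ^ n).ne_zero hxu.symm
    simp only [f, dif_neg hx0]
    rw [QuotientGroup.eq]
    have h4 : Units.mk0 x hx0 * u = y * ϖ ^ n := Units.ext hxu
    have h5 : (Units.mk0 x hx0)⁻¹ * y = u * (ϖ ^ n)⁻¹ := by
      rw [inv_mul_eq_iff_eq_mul, ← mul_assoc, h4, mul_inv_cancel_right]
    rw [h5]
    exact B.mul_mem hu (B.inv_mem (B.zpow_mem hϖB n))
  exact Subgroup.index_ne_zero_of_finite

omit [IsUltrametricDist L] in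
variable {K L} in
/-- the generator of `Gal(L/K)` when the degree is prime -/
theorem exists_generator {p : ℕ} (hp : p.Prime) (h : finrank K L = p) :
    ∃ σ : Gal(L/K), (∀ x, x ∈ Subgroup.zpowers σ) ∧ orderOf σ = p := by
  have hc : Nat.card Gal(L/K) = p := by rw [IsGalois.card_aut_eq_finrank, h]
  have : Fact p.Prime := ⟨hp⟩
  have : IsCyclic Gal(L/K) := isCyclic_of_prime_card hc
  obtain ⟨σ, hσ⟩ := IsCyclic.exists_generator (α := Gal(L/K))
  exact ⟨σ, hσ, by rw [orderOf_eq_card_of_forall_mem_zpowers hσ, hc]⟩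

theorem relIndex_zpowers_aux {A : Type*} [CommGroup A] (H : Subgroup A) (ϖ : A) (p : ℕ)
    (hH : ∀ n : ℤ, ϖ ^ n ∈ H ↔ (p : ℤ) ∣ n) : H.relIndex (Subgroup.zpowers ϖ) = p := by
  have h1 : (zpowersHom A ϖ).range = Subgroup.zpowers ϖ := by
    ext x
    constructor
    · rintro ⟨n, rfl⟩
      exact ⟨Multiplicative.toAdd n, rfl⟩
    · rintro ⟨n, rfl⟩
      exact ⟨Multiplicative.ofAdd n, rfl⟩
  rw [← h1, ← Subgroup.index_comap]
  have h2 : H.comap (zpowersHom A ϖ) = AddSubgroup.toSubgroup (AddSubgroup.zmultiples (p : ℤ)) := by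
    ext n
    rw [Subgroup.mem_comap, zpowersHom_apply, hH, ← Int.mem_zmultiples_iff]
    rfl
  rw [h2, AddSubgroup.index_toSubgroup, Int.index_zmultiples, Int.natAbs_natCast]

include l in
/-- **Norm index theorem**: for a cyclic extension `L/K` of prime degree `p` of local fields of
characteristic zero, `[Kˣ : N Lˣ] = p`. -/
theorem norm_index {p : ℕ} (hp : p.Prime) (h : finrank K L = p) :
    (Units.map (Algebra.norm K : L →* K)).range.index = p := by
  obtain ⟨σ, hσ, hord⟩ := exists_generator hp h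
  have : CompleteSpace L := FiniteDimensional.complete ℚ_[l] L
  obtain ⟨s, hs, hs1, hs2, hs3, hs4⟩ := exp_local l L
  obtain ⟨r, hr, hrs⟩ := exists_lat_subset (K := K) hs
  set B := expLat hr hs1 hrs with hBdef
  have hcont : ∀ g : Gal(L/K), Continuous g := fun g =>
    ((g.toLinearMap).restrictScalars ℚ_[l]).continuous_of_finiteDimensional
  have hgexp : ∀ g : Gal(L/K), ∀ x ∈ lat K L r hr, g (exp x) = exp (g x) := fun g x hx =>
    hs4 (g : L →+* L) (hcont g) x (hrs hx)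
  have hl0 : (algebraMap ℚ_[l] L (l : ℚ_[l])) ≠ 0 := by
    rw [map_ne_zero]; exact_mod_cast hl.out.ne_zero
  set ϖ : Lˣ := Units.mk0 _ hl0 with hϖdef
  have hϖval : (ϖ : L) = algebraMap ℚ_[l] L (l : ℚ_[l]) := rfl
  have hϖ1 : ‖(ϖ : L)‖ < 1 := by
    rw [hϖval, norm_algebraMap', Padic.norm_p]
    exact inv_lt_one_of_one_lt₀ (by exact_mod_cast hl.out.one_lt)
  have hϖ0 : 0 < ‖(ϖ : L)‖ := norm_pos_iff.mpr ϖ.ne_zero
  have hϖg : ∀ g : Gal(L/K), g (ϖ : L) = ϖ := by
    intro g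
    rw [hϖval, IsScalarTower.algebraMap_apply ℚ_[l] K L, AlgEquiv.commutes]
  set f : Lˣ →* Lˣ := sigDiv σ with hf
  set g : Lˣ →* Lˣ := normEnd K L with hg
  have hgv : ∀ u : Lˣ, (g u : L) = ∏ τ : Gal(L/K), τ (u : L) := normEnd_apply
  have hfv : ∀ u : Lˣ, (f u : L) = σ (u : L) / (u : L) := by
    intro u
    simp [hf, sigDiv]
  -- complex
  have hfg : ∀ x, f (g x) = 1 := by
    intro x
    apply Units.ext
    rw [hfv, Units.val_one]
    have h1 : (g x : L) = algebraMap K L (Algebra.norm K (x : L)) := rfl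
    rw [h1, AlgEquiv.commutes, div_self]
    rw [← h1]; exact (g x).ne_zero
  have hσprod : ∀ x : Lˣ, ∏ τ : Gal(L/K), τ (σ (x : L)) = ∏ τ : Gal(L/K), τ (x : L) := by
    intro x
    exact Fintype.prod_equiv (Equiv.mulRight σ) _ _ (fun τ => rfl)
  have hgf : ∀ x, g (f x) = 1 := by
    intro x
    apply Units.ext
    rw [hgv, Units.val_one]
    have h1 : ∀ τ : Gal(L/K), τ (f x : L) = τ (σ (x : L)) / τ (x : L) := by
      intro τ; rw [hfv, map_div₀]
    rw [Finset.prod_congr rfl fun τ _ => h1 τ, Finset.prod_div_distrib, hσprod, div_self]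
    rw [← hgv]; exact (g x).ne_zero
  -- value on `ϖ`
  have hfϖ : f ϖ = 1 := by
    apply Units.ext
    rw [hfv, hϖg, div_self ϖ.ne_zero, Units.val_one]
  have hcard : Fintype.card Gal(L/K) = p := by
    rw [← Nat.card_eq_fintype_card, IsGalois.card_aut_eq_finrank, h]
  have hgϖ : g ϖ = ϖ ^ p := by
    apply Units.ext
    rw [hgv, Finset.prod_congr rfl fun τ _ => hϖg τ, Finset.prod_const, Finset.card_univ, hcard,
      Units.val_pow_eq_pow_val]
  -- facts on `B`
  have hBnorm : ∀ u ∈ B, ‖(u : L)‖ = 1 := by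
    rintro u ⟨x, hx, hxu⟩
    have h1 := hs3 x (hrs hx)
    rw [hxu] at h1
    have h2 : (u : L) = ((u : L) - 1) + 1 := by ring
    rw [h2]
    have h3 : ‖(u : L) - 1‖ ≠ ‖(1 : L)‖ := by rw [norm_one]; exact h1.ne
    rw [IsUltrametricDist.norm_add_eq_max_of_norm_ne_norm h3, norm_one, max_eq_right h1.le]
  have hBf : B.map f ≤ B := by
    rintro _ ⟨u, ⟨x, hx, hxu⟩, rfl⟩
    refine ⟨σ x - x, sub_mem (gal_mem_lat hr σ hx) hx, ?_⟩
    rw [sub_eq_add_neg, hs1 _ (hrs (gal_mem_lat hr σ hx)) _ (hrs (neg_mem hx)), hfv, ← hgexp σ x hx,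
      hxu, div_eq_mul_inv]
    congr 1
    have := hs1 x (hrs hx) (-x) (hrs (neg_mem hx))
    rw [add_neg_cancel, exp_zero, hxu] at this
    exact eq_inv_of_mul_eq_one_right this.symm
  have hgexpsum : ∀ x ∈ lat K L r hr, ∀ u : Lˣ, exp x = (u : L) →
      exp (∑ τ : Gal(L/K), τ x) = (g u : L) := by
    intro x hx u hxu
    rw [exp_sum_lat hr hs1 hrs _ _ (fun τ _ => gal_mem_lat hr τ hx), hgv]
    refine Finset.prod_congr rfl fun τ _ => ?_
    rw [← hgexp τ x hx, hxu]
  have hBg : B.map g ≤ B := by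
    rintro _ ⟨u, ⟨x, hx, hxu⟩, rfl⟩
    exact ⟨∑ τ : Gal(L/K), τ x, sum_mem fun τ _ => gal_mem_lat hr τ hx, hgexpsum x hx u hxu⟩
  have hπ := sum_range_nbProj (K := K) (L := L) hσ hord
  let sσ : L →+ L := (σ : L →+* L).toAddMonoidHom
  let π : L →+ L := (nbProj K L).toAddMonoidHom
  have hsp : ∀ x, sσ^[p] x = x := by
    intro x
    have : (σ : L → L)^[p] x = x := by
      rw [iterate_eq_pow, ← hord, pow_orderOf_eq_one]; rfl
    exact this
  have hππ : ∀ x, ∑ i ∈ Finset.range p, sσ^[i] (π (sσ^[p - i] x)) = x := hπ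
  have hF3 : B ⊓ f.ker ≤ B.map g := by
    rintro u ⟨⟨x, hx, hxu⟩, hfu⟩
    have h1 : σ x = x := by
      apply hs2 (hrs (gal_mem_lat hr σ hx)) (hrs hx)
      rw [← hgexp σ x hx, hxu]
      have h2 : (f u : L) = ((1 : Lˣ) : L) := by rw [show f u = 1 from hfu]
      rw [hfv, Units.val_one, div_eq_one_iff_eq u.ne_zero] at h2
      exact h2
    have h2 := invariant_eq_norm sσ π p hsp hππ (x := x) h1
    have h3 : ∑ τ : Gal(L/K), τ (nbProj K L x) = x := by
      rw [← sum_range_eq hσ hord]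
      conv_rhs => rw [← h2]
      refine Finset.sum_congr rfl fun i _ => ?_
      rw [← iterate_eq_pow]
      rfl
    have h4 := nbProj_mem_lat hr hx
    have h5 : exp (nbProj K L x) ≠ 0 := by
      intro h0
      have := hs1 _ (hrs h4) _ (hrs (neg_mem h4))
      rw [add_neg_cancel, exp_zero, h0, zero_mul] at this
      exact one_ne_zero this
    refine ⟨Units.mk0 _ h5, ⟨nbProj K L x, h4, rfl⟩, ?_⟩
    apply Units.ext
    rw [← hgexpsum _ h4 _ rfl, h3, hxu]
  have hF4 : B ⊓ g.ker ≤ B.map f := by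
    rintro u ⟨⟨x, hx, hxu⟩, hgu⟩
    have h1 : ∑ τ : Gal(L/K), τ x = 0 := by
      apply hs2 (hrs (sum_mem fun τ _ => gal_mem_lat hr τ hx)) (hrs (zero_mem _))
      rw [hgexpsum x hx u hxu, show g u = 1 from hgu, exp_zero, Units.val_one]
    have h2 : ∑ i ∈ Finset.range p, sσ^[i] x = 0 := by
      rw [← h1, ← sum_range_eq hσ hord]
      refine Finset.sum_congr rfl fun i _ => ?_
      rw [← iterate_eq_pow]
      rfl
    have h3 := exists_sub_of_norm_eq_zero sσ π p hsp hππ h2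
    set y := ∑ i ∈ Finset.range p, sσ^[i] (π (∑ j ∈ Finset.range (p - i), sσ^[j] x)) with hy
    have hiter : ∀ (i : ℕ) (z : L), z ∈ lat K L r hr → sσ^[i] z ∈ lat K L r hr := by
      intro i z hz
      have : sσ^[i] z = (σ ^ i) z := iterate_eq_pow σ i z
      rw [this]
      exact gal_mem_lat hr _ hz
    have hymem : y ∈ lat K L r hr := by
      refine sum_mem fun i _ => hiter i _ (nbProj_mem_lat hr (sum_mem fun j _ => hiter j _ hx))
    have h5 : exp y ≠ 0 := by
      intro h0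
      have := hs1 _ (hrs hymem) _ (hrs (neg_mem hymem))
      rw [add_neg_cancel, exp_zero, h0, zero_mul] at this
      exact one_ne_zero this
    refine ⟨Units.mk0 _ h5, ⟨y, hymem, rfl⟩, ?_⟩
    apply Units.ext
    rw [hfv, Units.val_mk0, hgexp σ y hymem, div_eq_iff h5, ← hxu,
      ← hs1 _ (hrs hx) _ (hrs hymem)]
    congr 1
    have h6 : σ y - y = x := h3
    rw [← h6]; ring
  -- the subgroup `B' = B ϖ^ℤ`
  set Z := Subgroup.zpowers ϖ with hZ
  have hB'index : (B ⊔ Z).index ≠ 0 := by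
    apply index_ne_zero_of_nhds l (B ⊔ Z) _ ϖ hϖ1 (Subgroup.mem_sup_right
      (Subgroup.mem_zpowers ϖ))
    have h1 := exp_image_mem_nhds l L (lat_mem_nhds (K := K) l hr)
    refine mem_of_superset h1 ?_
    rintro _ ⟨x, hx, rfl⟩
    have h5 : exp x ≠ 0 := by
      intro h0
      have := hs1 _ (hrs hx) _ (hrs (neg_mem hx))
      rw [add_neg_cancel, exp_zero, h0, zero_mul] at this
      exact one_ne_zero this
    exact ⟨Units.mk0 _ h5, Subgroup.mem_sup_left ⟨x, hx, rfl⟩, rfl⟩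
  have hmapf : (B ⊔ Z).map f = B.map f := by
    rw [Subgroup.map_sup, hZ, MonoidHom.map_zpowers, hfϖ, Subgroup.zpowers_one_eq_bot, sup_bot_eq]
  have hmapg : (B ⊔ Z).map g = B.map g ⊔ Subgroup.zpowers (ϖ ^ p) := by
    rw [Subgroup.map_sup, hZ, MonoidHom.map_zpowers, hgϖ]
  have hZf : Z ≤ f.ker := by
    rw [hZ, Subgroup.zpowers_le]; exact hfϖ
  have hgB : B ⊓ f.ker = B.map g :=
    le_antisymm hF3 (le_inf hBg (by rintro _ ⟨x, -, rfl⟩; exact hfg x))
  have hinf : (B ⊔ Z) ⊓ f.ker = (B ⊔ Z).map g ⊔ Z := by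
    have h1 : (B ⊔ Z) ⊓ f.ker = (B ⊓ f.ker) ⊔ Z := by
      rw [sup_comm, sup_inf_assoc_of_le B hZf, sup_comm]
    rw [h1, hgB, hmapg, sup_assoc]
    congr 1
    symm
    rw [sup_eq_right, hZ, Subgroup.zpowers_le]
    exact Subgroup.pow_mem _ (Subgroup.mem_zpowers ϖ) p
  have hϖne : ‖(ϖ : L)‖ ≠ 1 := hϖ1.ne
  have hI1 : ((B ⊔ Z).map g).relIndex ((B ⊔ Z) ⊓ f.ker) = p := by
    rw [hinf, Subgroup.relIndex_sup_left]
    apply relIndex_zpowers_aux
    intro n
    constructor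
    · intro hn
      rw [hmapg, Subgroup.mem_sup] at hn
      obtain ⟨u, hu, v, ⟨m, rfl⟩, huv⟩ := hn
      have h1 := hBnorm u (hBg hu)
      have h2 := congrArg (fun v : Lˣ => ‖(v : L)‖) huv
      simp only [Units.val_mul, norm_mul, h1, one_mul, Units.val_zpow_eq_zpow_val,
        Units.val_pow_eq_pow_val, norm_zpow, norm_pow] at h2
      rw [← zpow_natCast, ← zpow_mul] at h2
      have h3 := zpow_right_injective₀ hϖ0 hϖne h2
      exact ⟨m, h3.symm⟩
    · rintro ⟨m, rfl⟩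
      rw [hmapg]
      apply Subgroup.mem_sup_right
      exact ⟨m, by simp only [zpow_mul, zpow_natCast]⟩
  have hI2 : ((B ⊔ Z).map f).relIndex ((B ⊔ Z) ⊓ g.ker) = 1 := by
    rw [Subgroup.relIndex_eq_one]
    rintro u ⟨hu, hgu⟩
    replace hu : u ∈ B ⊔ Z := hu
    rw [Subgroup.mem_sup] at hu
    obtain ⟨b, hb, z, ⟨n, rfl⟩, rfl⟩ := hu
    have h1 : g b * (ϖ ^ p) ^ n = 1 := by
      have : g (b * ϖ ^ n) = 1 := hgu
      rwa [map_mul, map_zpow, hgϖ] at this
    have h2 := congrArg (fun v : Lˣ => ‖(v : L)‖) h1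
    have h3 := hBnorm (g b) (hBg ⟨b, hb, rfl⟩)
    simp only [Units.val_mul, norm_mul, h3, one_mul, Units.val_zpow_eq_zpow_val,
        Units.val_pow_eq_pow_val, norm_zpow, norm_pow, Units.val_one, norm_one] at h2
    rw [← zpow_natCast, ← zpow_mul] at h2
    have h4 := zpow_right_injective₀ hϖ0 hϖne (h2.trans (zpow_zero _).symm)
    have h5 : n = 0 := by
      rcases mul_eq_zero.mp h4 with h5 | h5
      · exact absurd (by exact_mod_cast h5) hp.ne_zero
      · exact h5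
    subst h5
    rw [hmapf]
    apply hF4
    simp only [zpow_zero, mul_one] at hgu ⊢
    exact ⟨hb, hgu⟩
  have key := herbrand_mul f g hfg hgf (B ⊔ Z)
    (by rw [hmapf]; exact hBf.trans le_sup_left)
    (by
      rw [hmapg]
      refine sup_le (hBg.trans le_sup_left) ?_
      rw [Subgroup.zpowers_le]
      exact Subgroup.pow_mem _ (Subgroup.mem_sup_right (Subgroup.mem_zpowers ϖ)) p) hB'index
  rw [hI1, hI2, mul_one] at key
  -- Hilbert 90
  have h90 : f.range.relIndex g.ker = 1 := by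
    rw [Subgroup.relIndex_eq_one]
    intro u hu
    have h1 : Algebra.norm K (u : L) = 1 := by
      have : (g u : L) = 1 := by rw [show g u = 1 from hu, Units.val_one]
      have h2 : (g u : L) = algebraMap K L (Algebra.norm K (u : L)) := rfl
      rw [h2] at this
      exact (algebraMap K L).injective (this.trans (map_one _).symm)
    have : IsCyclic Gal(L/K) := ⟨σ, hσ⟩
    obtain ⟨y, hy⟩ := groupCohomology.exists_div_of_norm_eq_one hσ h1
    refine ⟨y⁻¹, ?_⟩
    apply Units.ext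
    rw [hfv, ← hy]
    simp only [Units.val_inv_eq_inv_val, map_inv₀]
    field_simp
  rw [h90, mul_one] at key
  -- transfer to `Kˣ`
  set i : Kˣ →* Lˣ := Units.map (algebraMap K L : K →* L) with hi
  have hiinj : Function.Injective i := Units.map_injective (algebraMap K L).injective
  have hirange : i.range = f.ker := by
    ext u
    constructor
    · rintro ⟨v, rfl⟩
      apply Units.ext
      rw [hfv, Units.val_one]
      simp only [hi, Units.coe_map, MonoidHom.coe_coe]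
      rw [AlgEquiv.commutes, div_self]
      exact (map_ne_zero _).mpr v.ne_zero
    · intro hu
      have h1 : σ (u : L) = u := by
        have h2 : (f u : L) = ((1 : Lˣ) : L) := by rw [show f u = 1 from hu]
        rwa [hfv, Units.val_one, div_eq_one_iff_eq u.ne_zero] at h2
      have h2 : (u : L) ∈ Set.range (algebraMap K L) := by
        rw [IsGalois.mem_range_algebraMap_iff_fixed]
        intro τ
        obtain ⟨n, rfl⟩ := hσ τ
        have h3 : σ ∈ MulAction.stabilizer Gal(L/K) (u : L) := h1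
        exact Subgroup.zpow_mem _ h3 n
      obtain ⟨v, hv⟩ := h2
      have hv0 : v ≠ 0 := by
        rintro rfl
        rw [map_zero] at hv
        exact u.ne_zero hv.symm
      exact ⟨Units.mk0 v hv0, Units.ext hv⟩
  have hgrange : (Units.map (Algebra.norm K : L →* K)).range.map i = g.range := by
    rw [hg, normEnd, MonoidHom.range_comp]
  rw [← Subgroup.relIndex_top_right, ← Subgroup.relIndex_map_map_of_injective _ _ hiinj, hgrange,
    ← MonoidHom.range_eq_map, hirange]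
  exact key

end Main

end Fermat.Agent.LocalCFT
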