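import Fermat.Agent.LocalCFT.Cyc

/-!
# The class formation of `ℚ_p` with the cyclotomic `ℤ_p`-extension
-/

set_option autoImplicit false
set_option linter.unusedSectionVars false
set_option linter.style.haveILetI false

namespace Fermat.Agent.LocalCFT

open Fermat.Agent.Coh Fermat.Agent.GalD Fermat.Agent.PLog Module IntermediateField

variable {l : ℕ} [hl : Fact l.Prime]

theorem mem_fld_top {x : PadicAlgCl l} :
    x ∈ fld (⊤ : Subgroup Gal(PadicAlgCl l/ℚ_[l])) ↔ ∃ y : ℚ_[l], algebraMap _ _ y = x := by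
  have h3 : fld (⊤ : Subgroup Gal(PadicAlgCl l/ℚ_[l])) = ⊥ := InfiniteGalois.fixedField_bot
  rw [h3, mem_bot]
  exact Iff.rfl

theorem top_open : (LF l).IsOpen (⊤ : Subgroup Gal(PadicAlgCl l/ℚ_[l])) := Fam.isOpen_top _

variable (l) in
/-- the element `l` -/
noncomputable def Pl : ↥(FF (LU l) (⊤ : Subgroup Gal(PadicAlgCl l/ℚ_[l]))) :=
  toFF l_mem_fld l_ne_zero

theorem algebraMap_unit_ne (u : ℤ_[l]ˣ) :
    algebraMap ℚ_[l] (PadicAlgCl l) ((u : ℤ_[l]) : ℚ_[l]) ≠ 0 := by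
  rw [Ne, map_eq_zero]
  intro h
  have h2 : (u : ℤ_[l]) = 0 := Subtype.ext h
  exact u.ne_zero h2

/-- a unit as an element of the top layer -/
noncomputable def fu (u : ℤ_[l]ˣ) : ↥(FF (LU l) (⊤ : Subgroup Gal(PadicAlgCl l/ℚ_[l]))) :=
  toFF (mem_fld_top.mpr ⟨_, rfl⟩) (algebraMap_unit_ne u)

@[simp] theorem uval_fu (u : ℤ_[l]ˣ) : uval (fu u : Additive (PadicAlgCl l)ˣ) =
    algebraMap ℚ_[l] (PadicAlgCl l) ((u : ℤ_[l]) : ℚ_[l]) := rfl

@[simp] theorem uval_Pl : uval (Pl l : Additive (PadicAlgCl l)ˣ) = l := rfl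

theorem fu_mul (u v : ℤ_[l]ˣ) : fu (u * v) = fu u + fu v := by
  apply Subtype.ext
  apply uval_injective
  rw [Submodule.coe_add, uval_add, uval_fu, uval_fu, uval_fu, ← map_mul]
  norm_cast

theorem fu_one : fu (1 : ℤ_[l]ˣ) = 0 := by
  have := fu_mul (1 : ℤ_[l]ˣ) 1
  rw [mul_one] at this
  exact left_eq_add.mp this

theorem fu_inv (u : ℤ_[l]ˣ) : fu u⁻¹ = - fu u := by
  rw [eq_neg_iff_add_eq_zero, ← fu_mul, inv_mul_cancel, fu_one]

theorem fu_pow (u : ℤ_[l]ˣ) (n : ℕ) : fu (u ^ n) = n • fu u := by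
  induction n with
  | zero => rw [pow_zero, fu_one, zero_smul]
  | succ n ih => rw [pow_succ, fu_mul, ih, add_smul, one_smul]

theorem fu_injective : Function.Injective (fu (l := l)) := by
  intro u v h
  have h1 := congrArg (fun a : ↥(FF (LU l) (⊤ : Subgroup Gal(PadicAlgCl l/ℚ_[l]))) =>
    uval (a : Additive (PadicAlgCl l)ˣ)) h
  simp only [uval_fu] at h1
  have h2 := (algebraMap ℚ_[l] (PadicAlgCl l)).injective h1
  exact Units.ext (Subtype.ext h2)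

theorem VU_fu (u : ℤ_[l]ˣ) : VU top_open (fu u) = 0 := by
  rw [← norm_eq_one_iff_VU, uval_fu, norm_algebraMap', ← PadicInt.norm_def]
  exact PadicInt.isUnit_iff.mp u.isUnit

theorem VU_Pl : VU top_open (Pl l) = 1 := by
  rw [Pl, VU_l, Subgroup.index_top]
  rfl

theorem exists_decomp (b : ↥(FF (LU l) (⊤ : Subgroup Gal(PadicAlgCl l/ℚ_[l])))) :
    ∃ (k : ℤ) (u : ℤ_[l]ˣ), b = k • Pl l + fu u := by
  obtain ⟨y, hy⟩ := mem_fld_top.mp (mem_FF_iff.mp b.2)
  have hy0 : y ≠ 0 := by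
    rintro rfl
    rw [map_zero] at hy
    exact uval_ne_zero _ hy.symm
  have hl0 : (l : ℚ_[l]) ≠ 0 := by exact_mod_cast hl.out.ne_zero
  have h1 : ‖y * (l : ℚ_[l]) ^ (-y.valuation)‖ = 1 := by
    rw [norm_mul, Padic.norm_p_zpow, Padic.norm_eq_zpow_neg_valuation hy0, ← zpow_add₀ l_pos.ne']
    simp
  refine ⟨y.valuation, PadicInt.mkUnits h1, ?_⟩
  apply Subtype.ext
  apply uval_injective
  rw [Submodule.coe_add, Submodule.coe_smul, uval_add, uval_zsmul, uval_fu, uval_Pl, ← hy,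
    PadicInt.mkUnits_eq, map_mul, map_zpow₀, map_natCast, mul_left_comm, ← zpow_add₀ l_ne_zero]
  simp

/-- the unit part -/
noncomputable def upart (b : ↥(FF (LU l) (⊤ : Subgroup Gal(PadicAlgCl l/ℚ_[l])))) : ℤ_[l]ˣ :=
  (exists_decomp b).choose_spec.choose

theorem decomp (b : ↥(FF (LU l) (⊤ : Subgroup Gal(PadicAlgCl l/ℚ_[l])))) :
    b = VU top_open b • Pl l + fu (upart b) := by
  have h1 := (exists_decomp b).choose_spec.choose_spec
  have h2 : VU top_open b = (exists_decomp b).choose := by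
    have h3 := congrArg (VUhom (l := l) top_open) h1
    rw [map_add, map_zsmul, VUhom_apply, VUhom_apply, VUhom_apply, VU_Pl, VU_fu, add_zero,
      smul_eq_mul, mul_one] at h3
    exact h3
  rw [h2]
  exact h1

theorem upart_unique (b : ↥(FF (LU l) (⊤ : Subgroup Gal(PadicAlgCl l/ℚ_[l])))) (k : ℤ)
    (u : ℤ_[l]ˣ) (h : b = k • Pl l + fu u) : upart b = u := by
  have h1 := decomp b
  have h2 : VU top_open b = k := by
    have h3 := congrArg (VUhom (l := l) top_open) h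
    rw [map_add, map_zsmul, VUhom_apply, VUhom_apply, VUhom_apply, VU_Pl, VU_fu, add_zero,
      smul_eq_mul, mul_one] at h3
    exact h3
  rw [h2] at h1
  exact fu_injective (add_left_cancel (h1.symm.trans h))

theorem upart_add (b c : ↥(FF (LU l) (⊤ : Subgroup Gal(PadicAlgCl l/ℚ_[l])))) :
    upart (b + c) = upart b * upart c := by
  apply upart_unique _ (VU top_open b + VU top_open c)
  conv_lhs => rw [decomp b, decomp c]
  rw [fu_mul, add_smul]
  abel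

theorem upart_Pl : upart (Pl l) = 1 := by
  apply upart_unique _ 1
  rw [fu_one, one_smul, add_zero]

theorem upart_fu (u : ℤ_[l]ˣ) : upart (fu u) = u := by
  apply upart_unique _ 0
  rw [zero_smul, zero_add]

section ram

variable {p : ℕ} [hp : Fact p.Prime]

/-- minus the logarithm of the unit part -/
noncomputable def v0p (hp2 : p ≠ 2) :
    ↥(FF (LU p) (⊤ : Subgroup Gal(PadicAlgCl p/ℚ_[p]))) →+ ℤ_[p] where
  toFun b := - lam (upart b)
  map_zero' := by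
    have : upart (0 : ↥(FF (LU p) (⊤ : Subgroup Gal(PadicAlgCl p/ℚ_[p])))) = 1 := by
      apply upart_unique _ 0
      rw [fu_one, zero_smul, add_zero]
    rw [this, lam_one hp2, neg_zero]
  map_add' b c := by rw [upart_add, lam_mul hp2]; ring

theorem v0p_apply (hp2 : p ≠ 2) (b : ↥(FF (LU p) (⊤ : Subgroup Gal(PadicAlgCl p/ℚ_[p])))) :
    v0p hp2 b = - lam (upart b) := rfl

/-- `p` is a norm from all layers of the cyclotomic extension -/
theorem nmr_one_sub (n : ℕ) {ζ : PadicAlgCl p} (hζ : IsPrimitiveRoot ζ (p ^ (n + 1))) :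
    nmr (LU p) (le_top : (cm p p (n + 1)).ker ≤ ⊤) (isOpen_ker_cm (n + 1))
      (toFF (one_sub_mem n hζ) (one_sub_ne_zero n hζ)) = Pl p := by
  set T := (cm p p (n + 1)).ker with hT
  letI := relFintype (isOpen_ker_cm (l := p) (p := p) (n + 1)) (⊤ : Subgroup _)
  apply Subtype.ext
  apply uval_injective
  rw [coe_nmr (LU p) (le_top : T ≤ ⊤) (isOpen_ker_cm (n + 1)) _
    (fun x => ((sec (T.subgroupOf ⊤) x : (⊤ : Subgroup Gal(PadicAlgCl p/ℚ_[p]))) : _))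
    (fun x => ⟨(sec (T.subgroupOf ⊤) x : (⊤ : Subgroup Gal(PadicAlgCl p/ℚ_[p]))).2, mk_sec _ x⟩),
    uval_sum, uval_Pl, ← prod_one_sub n hζ]
  classical
  have hpos : 0 < p ^ (n + 1) := pow_pos hp.out.pos _
  let F : (⊤ : Subgroup Gal(PadicAlgCl p/ℚ_[p])) ⧸ T.subgroupOf ⊤ → PadicAlgCl p := fun x =>
    ((sec (T.subgroupOf ⊤) x : (⊤ : Subgroup Gal(PadicAlgCl p/ℚ_[p]))) :
      Gal(PadicAlgCl p/ℚ_[p])) ζ
  have hFinj : Function.Injective F := by
    intro x y hxy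
    rw [← mk_sec (T.subgroupOf ⊤) x, ← mk_sec (T.subgroupOf ⊤) y, QuotientGroup.eq,
      Subgroup.mem_subgroupOf]
    refine (mem_ker_cm' hζ).mpr ?_
    set a := (sec (T.subgroupOf ⊤) x : (⊤ : Subgroup Gal(PadicAlgCl p/ℚ_[p])))
    set b := (sec (T.subgroupOf ⊤) y : (⊤ : Subgroup Gal(PadicAlgCl p/ℚ_[p])))
    have h1 : (a : Gal(PadicAlgCl p/ℚ_[p])) ζ = (b : Gal(PadicAlgCl p/ℚ_[p])) ζ := hxy
    change ((a : Gal(PadicAlgCl p/ℚ_[p]))⁻¹ * (b : Gal(PadicAlgCl p/ℚ_[p]))) ζ = ζ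
    rw [AlgEquiv.mul_apply, ← h1, ← AlgEquiv.mul_apply, inv_mul_cancel, AlgEquiv.one_apply]
  have himg : Finset.univ.image F = primitiveRoots (p ^ (n + 1)) (PadicAlgCl p) := by
    apply Finset.eq_of_subset_of_card_le
    · intro μ hμ
      obtain ⟨x, -, rfl⟩ := Finset.mem_image.mp hμ
      rw [mem_primitiveRoots hpos]
      exact hζ.map_of_injective (f := ((sec (T.subgroupOf ⊤) x :
        (⊤ : Subgroup Gal(PadicAlgCl p/ℚ_[p]))) : Gal(PadicAlgCl p/ℚ_[p])))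
        (AlgEquiv.injective _)
    · rw [Finset.card_image_of_injective _ hFinj, hζ.card_primitiveRoots, Finset.card_univ,
        ← index_ker_cm (p := p) n, ← Nat.card_eq_fintype_card, ← Subgroup.relIndex_top_right]
      rfl
  rw [← himg, Finset.prod_image (fun x _ y _ h => hFinj h)]
  refine Finset.prod_congr rfl fun x _ => ?_
  rw [uval_unitsRep, uval_toFF, map_sub, map_one]

theorem sym_Pl (hp2 : p ≠ 2) (n : ℕ) :
    sym (rep (LU p) ⊤) (AltD.psi (dc (l := p) p) (dc_mul hp2) (dc_sm hp2) ⊤ n) (Pl p) = 0 := by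
  obtain ⟨ζ, hζ⟩ := exists_prim (p := p) (Ω := PadicAlgCl p) (n + 1)
  rw [← nmr_one_sub n hζ, ← cr_sym (LU p) le_top (isOpen_ker_cm (n + 1))
    (AltD.psi (dc (l := p) p) (dc_mul hp2) (dc_sm hp2) ⊤ n) 0 (fun g => ?_), sym_zero_left, map_zero]
  rw [Chr.zero_apply, AltD.psi_apply, eq_comm, CFData.toZModPow_eq_zero_iff]
  exact dvd_dc_of_mem_ker hp2 g.2

theorem pow_nsmul_chr {Γ : Type*} [Group Γ] {𝓤 : Fam Γ} (n : ℕ) (χ : Chr 𝓤 (ZMod (p ^ n))) :
    p ^ n • χ = 0 := by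
  apply Chr.ext
  intro g
  rw [Chr.nsmul_apply, nsmul_eq_mul, ZMod.natCast_self, zero_mul, Chr.zero_apply]

theorem K_cyc (hp2 : p ≠ 2) (n : ℕ) (b : ↥(FF (LU p) (⊤ : Subgroup Gal(PadicAlgCl p/ℚ_[p]))))
    (hb : (p : ℤ_[p]) ^ n ∣ v0p hp2 b) :
    sym (rep (LU p) ⊤) (AltD.psi (dc (l := p) p) (dc_mul hp2) (dc_sm hp2) ⊤ n) b = 0 := by
  rw [v0p_apply, dvd_neg] at hb
  obtain ⟨c, hc, w, hw⟩ := exists_pow hp2 n _ hb
  rw [decomp b, map_add, map_zsmul, sym_Pl hp2, smul_zero, zero_add]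
  refine CFData.eq_zero_of_coprime _ c (p ^ n) (hc.pow_right n) ?_ ?_
  · rw [← map_nsmul, ← fu_pow, hw, fu_pow, map_nsmul, ← sym_nsmul_left, pow_nsmul_chr,
      sym_zero_left]
  · rw [← sym_nsmul_left, pow_nsmul_chr, sym_zero_left]

/-- The class formation of `ℚ_p` with the cyclotomic `ℤ_p`-extension. -/
noncomputable def cycCFp (hp2 : p ≠ 2) : CFData p (LF p) (LU p) :=
  AltD.alt (dc (l := p) p) (dc_mul hp2) (dc_sm hp2) (localCF p p) (exists_dc hp2) (v0p hp2)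
    (K_cyc hp2)

theorem cycCFp_d (hp2 : p ≠ 2) : (cycCFp hp2).d = dc (l := p) p := rfl

theorem cycCFp_v (hp2 : p ≠ 2) (U : Subgroup Gal(PadicAlgCl p/ℚ_[p])) (hU : (LF p).IsOpen U)
    (a : ↥(FF (LU p) U)) :
    (p : ℤ_[p]) ^ (cycCFp hp2).f U * (cycCFp hp2).v U a = v0p hp2 (nmr (LU p) le_top hU a) :=
  AltD.alt_v (dc (l := p) p) (dc_mul hp2) (dc_sm hp2) (localCF p p) (exists_dc hp2) (v0p hp2)
    (K_cyc hp2) U hU a

end ram

end Fermat.Agent.LocalCFT
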