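import Fermat.Agent.LocalCFT.Residue

/-!
# Valuations of the fixed fields and the fundamental identity
-/

set_option autoImplicit false
set_option linter.unusedSectionVars false
set_option linter.style.haveILetI false

namespace Fermat.Agent.LocalCFT

open Fermat.Agent.Coh Fermat.Agent.GalD Module IntermediateField

variable {l : ℕ} [hl : Fact l.Prime] {U U₁ U₂ : Subgroup Gal(PadicAlgCl l/ℚ_[l])}

variable (l) in
/-- the standard family -/
noncomputable abbrev LF : Fam Gal(PadicAlgCl l/ℚ_[l]) := fam ℚ_[l] (PadicAlgCl l)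

variable (l) in
/-- the standard representation -/
noncomputable abbrev LU : Representation ℤ Gal(PadicAlgCl l/ℚ_[l]) (Additive (PadicAlgCl l)ˣ) :=
  unitsRep ℚ_[l] (PadicAlgCl l)

theorem norm_uval_nmr (h : U₁ ≤ U₂) (hU₁ : (LF l).IsOpen U₁) (b : ↥(FF (LU l) U₁)) :
    ‖uval (nmr (LU l) h hU₁ b : Additive (PadicAlgCl l)ˣ)‖ =
      ‖uval (b : Additive (PadicAlgCl l)ˣ)‖ ^ U₁.relIndex U₂ := by
  letI := relFintype hU₁ U₂
  rw [coe_nmr (LU l) h hU₁ b (fun x => ((sec (U₁.subgroupOf U₂) x : U₂) : _))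
    (fun x => ⟨(sec (U₁.subgroupOf U₂) x : U₂).2, mk_sec _ x⟩), uval_sum, norm_prod]
  have h1 : ∀ x : U₂ ⧸ U₁.subgroupOf U₂, ‖uval ((LU l) ((sec (U₁.subgroupOf U₂) x : U₂) : _)
      (b : Additive (PadicAlgCl l)ˣ))‖ = ‖uval (b : Additive (PadicAlgCl l)ˣ)‖ := by
    intro x
    rw [uval_unitsRep, norm_gal]
  rw [Finset.prod_congr rfl fun x _ => h1 x, Finset.prod_const, Finset.card_univ,
    ← Nat.card_eq_fintype_card]
  rfl

theorem l_pos : (0 : ℝ) < l := by exact_mod_cast hl.out.pos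

theorem one_lt_l : (1 : ℝ) < l := by exact_mod_cast hl.out.one_lt

theorem exists_VU (hU : (LF l).IsOpen U) (a : ↥(FF (LU l) U)) :
    ∃ k : ℤ, ‖uval (a : Additive (PadicAlgCl l)ˣ)‖ ^ U.index = (l : ℝ) ^ (-k) := by
  have h1 := norm_uval_nmr (le_top : U ≤ ⊤) hU a
  rw [Subgroup.relIndex_top_right] at h1
  rw [← h1]
  set b := nmr (LU l) (le_top : U ≤ ⊤) hU a with hb
  have h2 : uval (b : Additive (PadicAlgCl l)ˣ) ∈ fld (⊤ : Subgroup Gal(PadicAlgCl l/ℚ_[l])) :=
    mem_FF_iff.mp b.2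
  have h3 : fld (⊤ : Subgroup Gal(PadicAlgCl l/ℚ_[l])) = ⊥ := InfiniteGalois.fixedField_bot
  rw [h3, mem_bot] at h2
  obtain ⟨x, hx⟩ := h2
  have hx0 : x ≠ 0 := by
    rintro rfl
    rw [map_zero] at hx
    exact uval_ne_zero _ hx.symm
  refine ⟨x.valuation, ?_⟩
  rw [← hx, norm_algebraMap', Padic.norm_eq_zpow_neg_valuation hx0]

/-- `n` times the additive valuation -/
noncomputable def VU (hU : (LF l).IsOpen U) (a : ↥(FF (LU l) U)) : ℤ := (exists_VU hU a).choose

theorem VU_spec (hU : (LF l).IsOpen U) (a : ↥(FF (LU l) U)) :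
    ‖uval (a : Additive (PadicAlgCl l)ˣ)‖ ^ U.index = (l : ℝ) ^ (-(VU hU a)) :=
  (exists_VU hU a).choose_spec

theorem VU_unique (hU : (LF l).IsOpen U) (a : ↥(FF (LU l) U)) (k : ℤ)
    (hk : ‖uval (a : Additive (PadicAlgCl l)ˣ)‖ ^ U.index = (l : ℝ) ^ (-k)) : VU hU a = k := by
  rw [VU_spec hU] at hk
  have := zpow_right_injective₀ l_pos one_lt_l.ne' hk
  omega

theorem VU_add (hU : (LF l).IsOpen U) (a b : ↥(FF (LU l) U)) :
    VU hU (a + b) = VU hU a + VU hU b := by
  apply VU_unique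
  rw [Submodule.coe_add, uval_add, norm_mul, mul_pow, VU_spec hU, VU_spec hU,
    ← zpow_add₀ l_pos.ne']
  congr 1
  ring

/-- `VU` as a homomorphism -/
noncomputable def VUhom (hU : (LF l).IsOpen U) : ↥(FF (LU l) U) →+ ℤ where
  toFun := VU hU
  map_zero' := by
    apply VU_unique
    simp
  map_add' := VU_add hU

@[simp] theorem VUhom_apply (hU : (LF l).IsOpen U) (a : ↥(FF (LU l) U)) :
    VUhom hU a = VU hU a := rfl

theorem VU_nmr (h : U₁ ≤ U₂) (hU₁ : (LF l).IsOpen U₁) (hU₂ : (LF l).IsOpen U₂)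
    (b : ↥(FF (LU l) U₁)) : VU hU₂ (nmr (LU l) h hU₁ b) = VU hU₁ b := by
  apply VU_unique
  rw [norm_uval_nmr, ← pow_mul, Subgroup.relIndex_mul_index h, VU_spec hU₁]

theorem index_pos (hU : (LF l).IsOpen U) : 0 < U.index :=
  Nat.pos_of_ne_zero hU.finiteIndex.index_ne_zero

theorem norm_lt_one_iff_VU (hU : (LF l).IsOpen U) (a : ↥(FF (LU l) U)) :
    ‖uval (a : Additive (PadicAlgCl l)ˣ)‖ < 1 ↔ 0 < VU hU a := by
  rw [← pow_lt_one_iff_of_nonneg (norm_nonneg _) (index_pos hU).ne', VU_spec hU]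
  rw [zpow_lt_one_iff_right₀ one_lt_l]
  omega

theorem norm_eq_one_iff_VU (hU : (LF l).IsOpen U) (a : ↥(FF (LU l) U)) :
    ‖uval (a : Additive (PadicAlgCl l)ˣ)‖ = 1 ↔ VU hU a = 0 := by
  rw [← pow_eq_one_iff_of_nonneg (norm_nonneg _) (index_pos hU).ne', VU_spec hU]
  rw [zpow_eq_one_iff_right₀ l_pos.le one_lt_l.ne']
  omega

/-- a nonzero element of the fixed field as an invariant -/
noncomputable def toFF {x : PadicAlgCl l} (hx : x ∈ fld U) (h0 : x ≠ 0) : ↥(FF (LU l) U) :=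
  ⟨umk x h0, mem_FF_iff.mpr hx⟩

@[simp] theorem uval_toFF {x : PadicAlgCl l} (hx : x ∈ fld U) (h0 : x ≠ 0) :
    uval (toFF hx h0 : Additive (PadicAlgCl l)ˣ) = x := rfl

theorem l_mem_fld : (l : PadicAlgCl l) ∈ fld U := IntermediateField.natCast_mem _ l

theorem l_ne_zero : (l : PadicAlgCl l) ≠ 0 := by exact_mod_cast hl.out.ne_zero

theorem norm_l : ‖(l : PadicAlgCl l)‖ = (l : ℝ)⁻¹ := by
  have h : (l : PadicAlgCl l) = algebraMap ℚ_[l] (PadicAlgCl l) (l : ℚ_[l]) := by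
    rw [map_natCast]
  rw [h, norm_algebraMap', Padic.norm_p]

theorem VU_l (hU : (LF l).IsOpen U) : VU hU (toFF l_mem_fld l_ne_zero) = U.index := by
  apply VU_unique
  rw [uval_toFF, norm_l, inv_pow, zpow_neg, zpow_natCast]

/-- The generator of the value group. -/
theorem exists_unif (hU : (LF l).IsOpen U) :
    ∃ (f₀ e : ℕ) (ϖ : ↥(FF (LU l) U)), 0 < f₀ ∧ 0 < e ∧ e * f₀ = U.index ∧ VU hU ϖ = f₀ ∧
      ∀ a, (f₀ : ℤ) ∣ VU hU a := by
  obtain ⟨g, hg⟩ := Int.subgroup_cyclic (VUhom hU).range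
  rw [← AddSubgroup.zmultiples_eq_closure] at hg
  have hn : ((U.index : ℕ) : ℤ) ∈ (VUhom hU).range := ⟨_, VU_l hU⟩
  have hdvd : ∀ a, g ∣ VU hU a := by
    intro a
    have : VU hU a ∈ (VUhom hU).range := ⟨a, rfl⟩
    rw [hg, Int.mem_zmultiples_iff] at this
    exact this
  have hg0 : g ≠ 0 := by
    rintro rfl
    rw [hg, Int.mem_zmultiples_iff, zero_dvd_iff] at hn
    have := index_pos hU
    omega
  have hgr : (g.natAbs : ℤ) ∈ (VUhom hU).range := by
    rw [hg, Int.mem_zmultiples_iff]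
    exact Int.dvd_natAbs.mpr dvd_rfl
  obtain ⟨ϖ, hϖ⟩ := hgr
  have hdn : g.natAbs ∣ U.index := by
    rw [hg, Int.mem_zmultiples_iff] at hn
    exact Int.natCast_dvd_natCast.mp (Int.natAbs_dvd.mpr hn)
  obtain ⟨e, he⟩ := hdn
  refine ⟨g.natAbs, e, ϖ, Int.natAbs_pos.mpr hg0, ?_, ?_, hϖ, ?_⟩
  · rcases Nat.eq_zero_or_pos e with h | h
    · rw [h, mul_zero] at he
      have := index_pos hU
      omega
    · exact h
  · rw [he, mul_comm]
  · intro a
    exact Int.natAbs_dvd.mpr (hdvd a)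

/-- the residue field of the fixed field -/
noncomputable def kap (U : Subgroup Gal(PadicAlgCl l/ℚ_[l])) : Subfield (KK l) where
  carrier := {y | ∃ x : OO l, (x : PadicAlgCl l) ∈ fld U ∧ rd x = y}
  mul_mem' := by
    rintro _ _ ⟨x, hx, rfl⟩ ⟨x', hx', rfl⟩
    exact ⟨x * x', mul_mem hx hx', map_mul _ _ _⟩
  one_mem' := ⟨1, one_mem _, map_one _⟩
  add_mem' := by
    rintro _ _ ⟨x, hx, rfl⟩ ⟨x', hx', rfl⟩
    exact ⟨x + x', add_mem hx hx', map_add _ _ _⟩
  zero_mem' := ⟨0, zero_mem _, map_zero _⟩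
  neg_mem' := by
    rintro _ ⟨x, hx, rfl⟩
    exact ⟨-x, neg_mem hx, map_neg _ _⟩
  inv_mem' := by
    rintro _ ⟨x, hx, rfl⟩
    by_cases h0 : rd x = 0
    · rw [h0, inv_zero]
      exact ⟨0, zero_mem _, map_zero _⟩
    · have h1 : ‖(x : PadicAlgCl l)‖ = 1 := by
        rw [rd_eq_zero_iff, not_lt] at h0
        exact le_antisymm (mem_OO.mp x.2) h0
      have h2 : (x : PadicAlgCl l)⁻¹ ∈ OO l := by rw [mem_OO, norm_inv, h1, inv_one]
      have h3 : (x : PadicAlgCl l) ≠ 0 := by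
        intro h3
        rw [h3, norm_zero] at h1
        exact zero_ne_one h1
      refine ⟨⟨_, h2⟩, inv_mem hx, ?_⟩
      apply eq_inv_of_mul_eq_one_left
      rw [rd, ← map_mul, ← map_one (IsLocalRing.residue (OO l))]
      congr 1
      exact Subtype.ext (inv_mul_cancel₀ h3)

theorem mem_kap {y : KK l} : y ∈ kap U ↔ ∃ x : OO l, (x : PadicAlgCl l) ∈ fld U ∧ rd x = y :=
  Iff.rfl

noncomputable instance algKK : Algebra (ZMod l) (KK l) := ZMod.algebra (KK l) l

/-- an `l`-adic integer in the ring of integers -/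
theorem coe_padicInt_mem (a : ℤ_[l]) : algebraMap ℚ_[l] (PadicAlgCl l) (a : ℚ_[l]) ∈ OO l := by
  rw [mem_OO, norm_algebraMap']
  exact a.2

theorem rd_padicInt (a : ℤ_[l]) :
    rd ⟨algebraMap ℚ_[l] (PadicAlgCl l) (a : ℚ_[l]), coe_padicInt_mem a⟩ =
      algebraMap (ZMod l) (KK l) (PadicInt.toZMod a) := by
  have h1 : (algebraMap (ZMod l) (KK l)) (PadicInt.toZMod a) =
      rd (((PadicInt.toZMod a).val : ℕ) : OO l) := by
    rw [rd, map_natCast]
    conv_lhs => rw [← ZMod.natCast_zmod_val (PadicInt.toZMod a)]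
    rw [map_natCast]
  rw [h1, rd_eq_iff]
  have h2 : (algebraMap ℚ_[l] (PadicAlgCl l) (a : ℚ_[l])) -
      ((((PadicInt.toZMod a).val : ℕ) : OO l) : PadicAlgCl l) =
      algebraMap ℚ_[l] (PadicAlgCl l) ((a - ((PadicInt.toZMod a).val : ℤ_[l]) : ℤ_[l]) : ℚ_[l]) := by
    rw [PadicInt.coe_sub, map_sub, PadicInt.coe_natCast, map_natCast]
    rfl
  rw [h2, norm_algebraMap']
  have h3 : (l : ℤ_[l]) ∣ a - ((PadicInt.toZMod a).val : ℤ_[l]) := by
    rw [← CFData.toZMod_eq_zero_iff, map_sub, map_natCast, ZMod.natCast_zmod_val, sub_self]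
  have h4 := (PadicInt.norm_lt_one_iff_dvd _).mpr h3
  exact h4

/-- The norm of a combination of elements with independent reductions. -/
theorem norm_sum_eq {ι : Type*} [Fintype ι] (ω : ι → OO l)
    (hω : LinearIndependent (ZMod l) (fun i => rd (ω i))) (a : ι → ℚ_[l]) (j : ι)
    (hj : ∀ i, ‖a i‖ ≤ ‖a j‖) :
    ‖∑ i, algebraMap ℚ_[l] (PadicAlgCl l) (a i) * (ω i : PadicAlgCl l)‖ = ‖a j‖ := by
  by_cases h0 : a j = 0
  · have h1 : ∀ i, a i = 0 := fun i => by
      have := hj i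
      rw [h0, norm_zero] at this
      exact norm_le_zero_iff.mp this
    simp [h1]
  · have hb : ∀ i, ‖a i / a j‖ ≤ 1 := fun i => by
      rw [norm_div]
      exact div_le_one_of_le₀ (hj i) (norm_nonneg _)
    set b : ι → ℤ_[l] := fun i => ⟨a i / a j, hb i⟩ with hbdef
    set s : OO l := ∑ i, ⟨algebraMap ℚ_[l] (PadicAlgCl l) (b i : ℚ_[l]), coe_padicInt_mem (b i)⟩ *
      ω i with hs
    have h1 : ∑ i, algebraMap ℚ_[l] (PadicAlgCl l) (a i) * (ω i : PadicAlgCl l) =
        algebraMap ℚ_[l] (PadicAlgCl l) (a j) * (s : PadicAlgCl l) := by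
      have h2 : (s : PadicAlgCl l) =
          ∑ i, algebraMap ℚ_[l] (PadicAlgCl l) (b i : ℚ_[l]) * (ω i : PadicAlgCl l) := by
        rw [hs]
        push_cast
        rfl
      rw [h2, Finset.mul_sum]
      refine Finset.sum_congr rfl fun i _ => ?_
      rw [← mul_assoc, ← map_mul]
      congr 2
      change a i = a j * (a i / a j)
      rw [mul_div_cancel₀ _ h0]
    have h3 : ‖(s : PadicAlgCl l)‖ = 1 := by
      by_contra hne
      have h4 : rd s = 0 := by
        rw [rd_eq_zero_iff]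
        exact lt_of_le_of_ne (mem_OO.mp s.2) hne
      rw [hs, rd, map_sum] at h4
      have h5 : ∑ i, PadicInt.toZMod (b i) • rd (ω i) = 0 := by
        rw [← h4]
        refine Finset.sum_congr rfl fun i _ => ?_
        rw [map_mul, Algebra.smul_def]
        congr 1
        exact (rd_padicInt (b i)).symm
      have h6 := Fintype.linearIndependent_iff.mp hω _ h5 j
      have h7 : b j = 1 := by
        apply Subtype.ext
        exact div_self h0
      rw [h7, map_one] at h6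
      exact one_ne_zero h6
    rw [h1, norm_mul, h3, mul_one, norm_algebraMap']

theorem norm_sub_lt_of_rd {y : PadicAlgCl l} (hy : ‖y‖ ≤ 1) (t : OO l)
    (h : rd ⟨y, mem_OO.mpr hy⟩ = rd t) : ‖y - (t : PadicAlgCl l)‖ < 1 :=
  (rd_eq_iff ⟨y, mem_OO.mpr hy⟩ t).mp h

theorem exists_combination {ι : Type} [Fintype ι] (ω : ι → OO l)
    (hspan : ∀ y ∈ kap U, ∃ c : ι → ℕ, y = ∑ i, (c i : KK l) * rd (ω i))
    {y : PadicAlgCl l} (hyU : y ∈ fld U) (hy : ‖y‖ ≤ 1) :
    ∃ c : ι → ℕ, ‖y - ∑ j, (c j : PadicAlgCl l) * (ω j : PadicAlgCl l)‖ < 1 := by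
  obtain ⟨c, hc⟩ := hspan (rd ⟨y, mem_OO.mpr hy⟩) ⟨⟨y, mem_OO.mpr hy⟩, hyU, rfl⟩
  refine ⟨c, ?_⟩
  have h2 : rd ⟨y, mem_OO.mpr hy⟩ = rd (∑ j, (c j : OO l) * ω j) := by
    rw [hc, rd, map_sum]
    refine Finset.sum_congr rfl fun j _ => ?_
    rw [map_mul, map_natCast]
  have h3 := norm_sub_lt_of_rd hy _ h2
  push_cast at h3
  exact h3

section EF

variable (hU : (LF l).IsOpen U) {f₀ e : ℕ} {ϖ : ↥(FF (LU l) U)} (hf₀ : 0 < f₀) (he : 0 < e)
  (hef : e * f₀ = U.index) (hϖ : VU hU ϖ = f₀) (hdiv : ∀ a, (f₀ : ℤ) ∣ VU hU a)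

include hf₀ he hef hϖ in
/-- first inequality of the fundamental identity -/
theorem e_mul_card_le {ι : Type} [Fintype ι] (ω : ι → OO l)
    (hωU : ∀ i, (ω i : PadicAlgCl l) ∈ fld U)
    (hω : LinearIndependent (ZMod l) (fun i => rd (ω i))) : e * Fintype.card ι ≤ U.index := by
  classical
  have hfin := finiteDimensional_fld hU
  set P : PadicAlgCl l := uval (ϖ : Additive (PadicAlgCl l)ˣ) with hP
  have hPU : P ∈ fld U := mem_FF_iff.mp ϖ.2
  have hP0 : P ≠ 0 := uval_ne_zero _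
  have hPn : ‖P‖ ^ U.index = (l : ℝ) ^ (-(f₀ : ℤ)) := by rw [hP, VU_spec hU, hϖ]
  have hn := index_pos hU
  let F : Fin e × ι → fld U := fun x =>
    ⟨P ^ (x.1 : ℕ) * (ω x.2 : PadicAlgCl l), mul_mem (pow_mem hPU _) (hωU x.2)⟩
  have hF : LinearIndependent ℚ_[l] F := by
    rw [Fintype.linearIndependent_iff]
    intro a ha
    by_contra hne
    push Not at hne
    obtain ⟨⟨i₁, j₁⟩, hne⟩ := hne
    -- the inner sums
    set s : Fin e → PadicAlgCl l := fun i =>
      ∑ j, algebraMap ℚ_[l] (PadicAlgCl l) (a (i, j)) * (ω j : PadicAlgCl l) with hs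
    have hsum : ∑ i : Fin e, P ^ (i : ℕ) * s i = 0 := by
      have h1 := congrArg (Subtype.val) ha
      rw [Fintype.sum_prod_type] at h1
      have h2 : ((∑ i : Fin e, ∑ j : ι, a (i, j) • F (i, j) : fld U) : PadicAlgCl l) =
          ∑ i : Fin e, P ^ (i : ℕ) * s i := by
        push_cast
        refine Finset.sum_congr rfl fun i _ => ?_
        rw [hs, Finset.mul_sum]
        refine Finset.sum_congr rfl fun j _ => ?_
        rw [Algebra.smul_def]
        change _ * (P ^ (i : ℕ) * _) = _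
        ring
      rw [h2] at h1
      exact h1
    have hsn : ∀ i, s i = 0 ∨ ∃ k : ℤ, ‖s i‖ = (l : ℝ) ^ k := by
      intro i
      rcases isEmpty_or_nonempty ι with hι | hι
      · left
        rw [hs]
        simp
      obtain ⟨j, hj⟩ := Finite.exists_max (fun j => ‖a (i, j)‖)
      have h3 := norm_sum_eq ω hω (fun j => a (i, j)) j hj
      by_cases h0 : a (i, j) = 0
      · left
        rw [h0, norm_zero] at h3
        exact norm_eq_zero.mp h3
      · right
        exact ⟨_, h3.trans (Padic.norm_eq_zpow_neg_valuation h0)⟩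
    have hs1 : s i₁ ≠ 0 := by
      have : Nonempty ι := ⟨j₁⟩
      obtain ⟨j, hj⟩ := Finite.exists_max (fun j => ‖a (i₁, j)‖)
      have h3 := norm_sum_eq ω hω (fun j => a (i₁, j)) j hj
      intro h4
      rw [hs] at h4
      simp only at h4
      rw [h4, norm_zero] at h3
      have h5 := hj j₁
      rw [← h3] at h5
      exact hne (norm_le_zero_iff.mp h5)
    -- the norms of the nonzero terms are distinct
    have hdist : ∀ i i' : Fin e, s i ≠ 0 → s i' ≠ 0 →
        ‖P ^ (i : ℕ) * s i‖ = ‖P ^ (i' : ℕ) * s i'‖ → i = i' := by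
      intro i i' hi hi' heq
      obtain ⟨k, hk⟩ := (hsn i).resolve_left hi
      obtain ⟨k', hk'⟩ := (hsn i').resolve_left hi'
      have h3 := congrArg (fun x : ℝ => x ^ U.index) heq
      simp only [norm_mul, norm_pow, mul_pow] at h3
      rw [← pow_mul, ← pow_mul, mul_comm (i : ℕ), mul_comm (i' : ℕ), pow_mul, pow_mul, hPn, hk,
        hk', ← zpow_natCast, ← zpow_natCast, ← zpow_mul, ← zpow_mul, ← zpow_natCast, ← zpow_natCast,
        ← zpow_mul, ← zpow_mul, ← zpow_add₀ l_pos.ne', ← zpow_add₀ l_pos.ne'] at h3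
      have h4 := zpow_right_injective₀ l_pos one_lt_l.ne' h3
      have h5 : (f₀ : ℤ) * (-(i : ℤ) + k * e) = f₀ * (-(i' : ℤ) + k' * e) := by
        have h6 : ((U.index : ℕ) : ℤ) = e * f₀ := by rw [← hef]; push_cast; ring
        rw [h6] at h4
        linarith [h4]
      have h7 := mul_left_cancel₀ (by exact_mod_cast hf₀.ne') h5
      have hi2 := i.2
      have hi2' := i'.2
      apply Fin.ext
      have h8 : ((i' : ℕ) : ℤ) - i = (k' - k) * e := by linarith
      have h9 : (k' - k) = 0 := by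
        by_contra hkk
        have h10 : (1 : ℤ) ≤ |k' - k| := Int.one_le_abs hkk
        have h11 : |((i' : ℕ) : ℤ) - i| = |k' - k| * e := by
          rw [h8, abs_mul, Nat.abs_cast]
        have h12 : |((i' : ℕ) : ℤ) - i| < e := by
          rw [abs_lt]
          constructor <;> omega
        nlinarith
      rw [h9, zero_mul] at h8
      omega
    -- the maximal term
    have : Nonempty (Fin e) := ⟨i₁⟩
    obtain ⟨i₀, hi₀⟩ := Finite.exists_max (fun i : Fin e => ‖P ^ (i : ℕ) * s i‖)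
    have hi₀0 : s i₀ ≠ 0 := by
      intro h0
      have h3 := hi₀ i₁
      simp only [h0, mul_zero, norm_zero] at h3
      have h4 := norm_le_zero_iff.mp h3
      exact hs1 ((mul_eq_zero.mp h4).resolve_left (pow_ne_zero _ hP0))
    have hpos : 0 < ‖P ^ (i₀ : ℕ) * s i₀‖ := norm_pos_iff.mpr (mul_ne_zero (pow_ne_zero _ hP0) hi₀0)
    have hlt : ∀ i ∈ Finset.univ.erase i₀, ‖P ^ (i : ℕ) * s i‖ < ‖P ^ (i₀ : ℕ) * s i₀‖ := by
      intro i hi
      by_cases h0 : s i = 0
      · rw [h0, mul_zero, norm_zero]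
        exact hpos
      · refine lt_of_le_of_ne (hi₀ i) fun h => (Finset.ne_of_mem_erase hi) (hdist i i₀ h0 hi₀0 h)
    rw [← Finset.add_sum_erase _ _ (Finset.mem_univ i₀)] at hsum
    have h3 := eq_neg_of_add_eq_zero_left hsum
    rcases (Finset.univ.erase i₀).eq_empty_or_nonempty with hemp | hnon
    · rw [hemp, Finset.sum_empty, neg_zero] at h3
      rw [h3, norm_zero] at hpos
      exact lt_irrefl _ hpos
    · obtain ⟨i, hi, hle⟩ := IsUltrametricDist.exists_norm_finsetSum_le_of_nonempty hnon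
        (fun i => P ^ (i : ℕ) * s i)
      have h4 := hle.trans_lt (hlt i hi)
      rw [h3, norm_neg] at h4
      exact lt_irrefl _ h4
  have h1 := hF.fintype_card_le_finrank
  rw [Fintype.card_prod, Fintype.card_fin, finrank_fld hU] at h1
  exact h1

set_option maxHeartbeats 1000000 in
include hf₀ he hef hϖ hdiv in
/-- second inequality of the fundamental identity -/
theorem index_le_e_mul_card {ι : Type} [Fintype ι] (ω : ι → OO l)
    (hωU : ∀ i, (ω i : PadicAlgCl l) ∈ fld U)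
    (hspan : ∀ y ∈ kap U, ∃ c : ι → ℕ, y = ∑ i, (c i : KK l) * rd (ω i)) :
    U.index ≤ e * Fintype.card ι := by
  classical
  have hfin := finiteDimensional_fld hU
  set P : PadicAlgCl l := uval (ϖ : Additive (PadicAlgCl l)ˣ) with hP
  have hPU : P ∈ fld U := mem_FF_iff.mp ϖ.2
  have hP0 : P ≠ 0 := uval_ne_zero _
  have hPn : ‖P‖ ^ U.index = (l : ℝ) ^ (-(f₀ : ℤ)) := by rw [hP, VU_spec hU, hϖ]
  have hn := index_pos hU
  let F : Fin e × ι → PadicAlgCl l := fun x => P ^ (x.1 : ℕ) * (ω x.2 : PadicAlgCl l)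
  set W : Submodule ℚ_[l] (PadicAlgCl l) := Submodule.span ℚ_[l] (Set.range F) with hW
  have hFW : ∀ i j, P ^ (i : ℕ) * (ω j : PadicAlgCl l) ∈ W ∨ e ≤ i := by
    intro i j
    by_cases h : i < e
    · left
      exact Submodule.subset_span ⟨(⟨i, h⟩, j), rfl⟩
    · right
      omega
  have hnatW : ∀ (c : ℕ) (w : PadicAlgCl l), w ∈ W → (c : PadicAlgCl l) * w ∈ W := by
    intro c w hw
    have : (c : PadicAlgCl l) * w = (c : ℚ_[l]) • w := by
      rw [Algebra.smul_def, map_natCast]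
    rw [this]
    exact W.smul_mem _ hw
  -- division by the uniformizer
  have hdivP : ∀ x : PadicAlgCl l, x ∈ fld U → ‖x‖ < 1 → ∃ y ∈ fld U, ‖y‖ ≤ 1 ∧ x = P * y := by
    intro x hx hx1
    by_cases h0 : x = 0
    · exact ⟨0, zero_mem _, by rw [norm_zero]; exact zero_le_one, by rw [h0, mul_zero]⟩
    · refine ⟨x / P, div_mem hx hPU, ?_, (mul_div_cancel₀ _ hP0).symm⟩
      have h1 : 0 < VU hU (toFF hx h0) := (norm_lt_one_iff_VU hU _).mp hx1
      have h2 := Int.le_of_dvd h1 (hdiv (toFF hx h0))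
      have h3 : ‖x‖ ^ U.index ≤ ‖P‖ ^ U.index := by
        rw [hPn]
        have h4 := VU_spec hU (toFF hx h0)
        rw [uval_toFF] at h4
        rw [h4]
        exact zpow_le_zpow_right₀ one_lt_l.le (by omega)
      have h4 := (pow_le_pow_iff_left₀ (norm_nonneg _) (norm_nonneg _) hn.ne').mp h3
      rw [norm_div]
      exact div_le_one_of_le₀ h4 (norm_nonneg _)
  -- one step
  have step : ∀ i ≤ e, ∀ y : PadicAlgCl l, y ∈ fld U → ‖y‖ ≤ 1 →
      ∃ s ∈ W, ∃ y' ∈ fld U, ‖y'‖ ≤ 1 ∧ y = s + P ^ i * y' := by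
    intro i
    induction i with
    | zero =>
      intro _ y hy hy1
      exact ⟨0, W.zero_mem, y, hy, hy1, by simp⟩
    | succ i ih =>
      intro hi y hy hy1
      obtain ⟨s, hs, y', hy', hy'1, rfl⟩ := ih (by omega) y hy hy1
      obtain ⟨c, h1⟩ := exists_combination ω hspan hy' hy'1
      obtain ⟨t, ht⟩ : ∃ t : PadicAlgCl l,
        t = ∑ j, (c j : PadicAlgCl l) * (ω j : PadicAlgCl l) := ⟨_, rfl⟩
      rw [← ht] at h1
      have htU : t ∈ fld U := by
        rw [ht]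
        exact sum_mem fun j _ => mul_mem (IntermediateField.natCast_mem _ _) (hωU j)
      obtain ⟨y'', hy'', hy''1, h3⟩ := hdivP _ (sub_mem hy' htU) h1
      refine ⟨s + P ^ i * t, W.add_mem hs ?_, y'', hy'', hy''1, ?_⟩
      · rw [ht, Finset.mul_sum]
        refine W.sum_mem fun j _ => ?_
        have h4 : P ^ i * ((c j : PadicAlgCl l) * (ω j : PadicAlgCl l)) =
          (c j : PadicAlgCl l) * (P ^ i * (ω j : PadicAlgCl l)) := by ring
        rw [h4]
        exact hnatW _ _ ((hFW i j).resolve_right (by omega))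
      · have h5 : y' = t + P * y'' := by rw [← h3]; ring
        rw [h5]
        ring
  -- reduction modulo `l`
  have stepl : ∀ y : PadicAlgCl l, y ∈ fld U → ‖y‖ ≤ 1 →
      ∃ s ∈ W, ∃ y' ∈ fld U, ‖y'‖ ≤ 1 ∧ y = s + (l : PadicAlgCl l) * y' := by
    intro y hy hy1
    obtain ⟨s, hs, y', hy', hy'1, rfl⟩ := step e le_rfl y hy hy1
    have hPe : ‖P ^ e‖ = ‖(l : PadicAlgCl l)‖ := by
      have h1 : ‖P ^ e‖ ^ U.index = ‖(l : PadicAlgCl l)‖ ^ U.index := by
        rw [norm_pow, ← pow_mul, mul_comm, pow_mul, hPn, norm_l, zpow_neg, zpow_natCast,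
          inv_pow, inv_pow, ← pow_mul, ← hef, mul_comm f₀ e]
      exact (pow_left_inj₀ (norm_nonneg _) (norm_nonneg _) hn.ne').mp h1
    refine ⟨s, hs, P ^ e / (l : PadicAlgCl l) * y',
      mul_mem (div_mem (pow_mem hPU _) l_mem_fld) hy', ?_, ?_⟩
    · rw [norm_mul, norm_div, hPe, div_self (norm_ne_zero_iff.mpr l_ne_zero), one_mul]
      exact hy'1
    · rw [← mul_assoc, mul_div_cancel₀ _ (l_ne_zero (l := l))]
  have stepk : ∀ k : ℕ, ∀ y : PadicAlgCl l, y ∈ fld U → ‖y‖ ≤ 1 →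
      ∃ s ∈ W, ∃ y' ∈ fld U, ‖y'‖ ≤ 1 ∧ y = s + (l : PadicAlgCl l) ^ k * y' := by
    intro k
    induction k with
    | zero =>
      intro y hy hy1
      exact ⟨0, W.zero_mem, y, hy, hy1, by simp⟩
    | succ k ih =>
      intro y hy hy1
      obtain ⟨s, hs, y', hy', hy'1, rfl⟩ := ih y hy hy1
      obtain ⟨s', hs', y'', hy'', hy''1, rfl⟩ := stepl y' hy' hy'1
      refine ⟨s + ((l ^ k : ℕ) : PadicAlgCl l) * s', W.add_mem hs (hnatW _ _ hs'), y'', hy'',
        hy''1, ?_⟩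
      push_cast
      ring
  have hWfin : FiniteDimensional ℚ_[l] W := FiniteDimensional.span_of_finite _ (Set.finite_range _)
  have hclosed : IsClosed (W : Set (PadicAlgCl l)) := W.closed_of_finiteDimensional
  have hball : ∀ y : PadicAlgCl l, y ∈ fld U → ‖y‖ ≤ 1 → y ∈ W := by
    intro y hy hy1
    choose s hs y' _ hy'1 hk using fun k => stepk k y hy hy1
    have hlim : Filter.Tendsto s Filter.atTop (nhds y) := by
      rw [tendsto_iff_norm_sub_tendsto_zero]
      have h1 : ∀ k, ‖s k - y‖ ≤ ‖(l : PadicAlgCl l)‖ ^ k := by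
        intro k
        have h2 : s k - y = -((l : PadicAlgCl l) ^ k * y' k) := by
          conv_lhs => rw [hk k]
          ring
        rw [h2, norm_neg, norm_mul, norm_pow]
        exact mul_le_of_le_one_right (pow_nonneg (norm_nonneg _) _) (hy'1 k)
      exact squeeze_zero (fun k => norm_nonneg _) h1
        (tendsto_pow_atTop_nhds_zero_of_lt_one (norm_nonneg _) norm_natCast_l)
    exact hclosed.mem_of_tendsto hlim (Filter.Eventually.of_forall hs)
  have hall : ∀ y : PadicAlgCl l, y ∈ fld U → y ∈ W := by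
    intro y hy
    obtain ⟨k, hk⟩ : ∃ k : ℕ, ‖(l : PadicAlgCl l)‖ ^ k * ‖y‖ ≤ 1 := by
      have h1 : Filter.Tendsto (fun k : ℕ => ‖(l : PadicAlgCl l)‖ ^ k * ‖y‖) Filter.atTop
          (nhds (0 * ‖y‖)) :=
        (tendsto_pow_atTop_nhds_zero_of_lt_one (norm_nonneg _) norm_natCast_l).mul_const _
      rw [zero_mul] at h1
      exact (h1.eventually (ge_mem_nhds zero_lt_one)).exists
    have h2 := hball ((l : PadicAlgCl l) ^ k * y) (mul_mem (pow_mem l_mem_fld _) hy)
      (by rw [norm_mul, norm_pow]; exact hk)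
    have h3 : y = ((l : ℚ_[l]) ^ k)⁻¹ • ((l : PadicAlgCl l) ^ k * y) := by
      rw [Algebra.smul_def, map_inv₀, map_pow, map_natCast,
        inv_mul_cancel_left₀ (pow_ne_zero _ (l_ne_zero (l := l)))]
    rw [h3]
    exact W.smul_mem _ h2
  -- dimensions
  have h1 : finrank ℚ_[l] (fld U) ≤ finrank ℚ_[l] W := by
    let T : (fld U) →ₗ[ℚ_[l]] W :=
      { toFun := fun x => ⟨x, hall x x.2⟩
        map_add' := fun _ _ => rfl
        map_smul' := fun _ _ => rfl }
    exact LinearMap.finrank_le_finrank_of_injective (f := T) fun x y hxy =>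
      Subtype.ext (congrArg (fun z : W => (z : PadicAlgCl l)) hxy)
  have h2 : finrank ℚ_[l] W ≤ Fintype.card (Fin e × ι) := by
    have := finrank_range_le_card (R := ℚ_[l]) F
    exact this
  rw [finrank_fld hU] at h1
  rw [Fintype.card_prod, Fintype.card_fin] at h2
  exact h1.trans h2

end EF

noncomputable instance algkap (U : Subgroup Gal(PadicAlgCl l/ℚ_[l])) :
    Algebra (ZMod l) (kap U) :=
  have : CharP (kap U) l := CharP.subring' (KK l) l (kap U).toSubring
  ZMod.algebra (kap U) l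

/-- the residue degree -/
noncomputable def fdeg (U : Subgroup Gal(PadicAlgCl l/ℚ_[l])) : ℕ :=
  finrank (ZMod l) (kap U)

/-- the inclusion as a linear map -/
noncomputable def kapLin (U : Subgroup Gal(PadicAlgCl l/ℚ_[l])) : (kap U) →ₗ[ZMod l] KK l :=
  (kap U).subtype.toAddMonoidHom.toZModLinearMap l

theorem kapLin_apply (y : kap U) : kapLin U y = y := rfl

theorem finite_kap (hU : (LF l).IsOpen U) : Module.Finite (ZMod l) (kap U) := by
  obtain ⟨f₀, e, ϖ, hf₀, he, hef, hϖ, hdiv⟩ := exists_unif hU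
  have h1 : Module.rank (ZMod l) (kap U) ≤ (U.index : ℕ) := by
    apply rank_le
    intro s hs
    choose x hxU hx using fun y : kap U => y.2
    have h2 := e_mul_card_le hU hf₀ he hef hϖ (ι := s) (fun y => x y) (fun y => hxU y) (by
      have h3 : (fun i : s => rd (x i)) = (kapLin U) ∘ (fun i : s => (i : kap U)) :=
        funext fun i => hx i
      rw [h3]
      exact hs.map' (kapLin U) (LinearMap.ker_eq_bot.mpr Subtype.val_injective))
    rw [Fintype.card_coe] at h2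
    nlinarith
  exact Module.rank_lt_aleph0_iff.mp (h1.trans_lt (Cardinal.natCast_lt_aleph0))

/-- The fundamental identity. -/
theorem exists_unif_fdeg (hU : (LF l).IsOpen U) : 0 < fdeg U ∧
    (∃ ϖ : ↥(FF (LU l) U), VU hU ϖ = fdeg U) ∧ ∀ a, (fdeg U : ℤ) ∣ VU hU a := by
  obtain ⟨f₀, e, ϖ, hf₀, he, hef, hϖ, hdiv⟩ := exists_unif hU
  have hfin := finite_kap hU
  let b := Module.finBasis (ZMod l) (kap U)
  choose x hxU hx using fun y : kap U => y.2
  have h1 := e_mul_card_le hU hf₀ he hef hϖ (ι := Fin (finrank (ZMod l) (kap U)))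
    (fun i => x (b i)) (fun i => hxU (b i)) (by
      have h3 : (fun i => rd (x (b i))) = (kapLin U) ∘ b := funext fun i => hx (b i)
      rw [h3]
      exact b.linearIndependent.map' (kapLin U)
        (LinearMap.ker_eq_bot.mpr Subtype.val_injective))
  have h2 := index_le_e_mul_card hU hf₀ he hef hϖ hdiv (ι := Fin (finrank (ZMod l) (kap U)))
    (fun i => x (b i)) (fun i => hxU (b i)) (fun y hy => by
      refine ⟨fun i => (b.repr ⟨y, hy⟩ i).val, ?_⟩
      have h3 := congrArg (kapLin U) (b.sum_repr ⟨y, hy⟩)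
      rw [map_sum, kapLin_apply] at h3
      simp only at h3
      refine h3.symm.trans (Finset.sum_congr rfl fun i _ => ?_)
      rw [map_smul, Algebra.smul_def, kapLin_apply, hx]
      congr 1
      conv_lhs => rw [← ZMod.natCast_zmod_val (b.repr ⟨y, hy⟩ i)]
      rw [map_natCast])
  rw [Fintype.card_fin] at h1 h2
  have h3 : e * fdeg U = e * f₀ := by
    rw [hef]
    exact le_antisymm h1 h2
  have h4 : fdeg U = f₀ := Nat.eq_of_mul_eq_mul_left he h3
  rw [h4]
  exact ⟨hf₀, ⟨ϖ, hϖ⟩, hdiv⟩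

theorem card_kap (hU : (LF l).IsOpen U) : Nat.card (kap U) = l ^ fdeg U := by
  have hfin := finite_kap hU
  have : Fact l.Prime := hl
  rw [Module.natCard_eq_pow_finrank (K := ZMod l) (V := kap U), Nat.card_zmod, fdeg]

end Fermat.Agent.LocalCFT
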