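import Mathlib

/-!
# The `p`-adic exponential near `0`
-/

set_option autoImplicit false

namespace Fermat.Agent.LocalCFT

open NormedSpace Filter Topology

section Exp

variable (l : ℕ) [hl : Fact l.Prime] (L : Type*) [NormedField L] [NormedAlgebra ℚ_[l] L]

theorem norm_factorial_inv_le (n : ℕ) : ‖((n.factorial : ℚ_[l]))⁻¹‖ ≤ (l : ℝ) ^ n := by
  have hl1 : (1 : ℝ) < l := by exact_mod_cast hl.out.one_lt
  have h0 : (n.factorial : ℚ_[l]) ≠ 0 := by exact_mod_cast n.factorial_ne_zero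
  have h1 : padicValNat l n.factorial ≤ n := by
    have h2 := sub_one_mul_padicValNat_factorial (p := l) n
    have h3 : 1 ≤ l - 1 := by have := hl.out.two_le; omega
    calc padicValNat l n.factorial ≤ (l - 1) * padicValNat l n.factorial :=
          Nat.le_mul_of_pos_left _ h3
      _ ≤ n := by rw [h2]; exact Nat.sub_le _ _
  rw [norm_inv, Padic.norm_eq_zpow_neg_valuation h0, Padic.valuation_natCast, zpow_neg, inv_inv,
    zpow_natCast]
  exact pow_le_pow_right₀ hl1.le h1

theorem radius_pos : 0 < (expSeries ℚ_[l] L).radius := by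
  have hl1 : (0 : ℝ) < l := by exact_mod_cast hl.out.pos
  have h : (((l : NNReal)⁻¹ : NNReal) : ENNReal) ≤ (expSeries ℚ_[l] L).radius := by
    apply FormalMultilinearSeries.le_radius_of_bound _ 1
    intro n
    have h1 : ‖expSeries ℚ_[l] L n‖ ≤ (l : ℝ) ^ n := by
      rw [expSeries, norm_smul]
      have h2 : ‖ContinuousMultilinearMap.mkPiAlgebraFin ℚ_[l] n L‖ = 1 :=
        ContinuousMultilinearMap.norm_mkPiAlgebraFin
      rw [h2, mul_one]
      exact norm_factorial_inv_le l n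
    calc ‖expSeries ℚ_[l] L n‖ * (((l : NNReal)⁻¹ : NNReal) : ℝ) ^ n
        ≤ (l : ℝ) ^ n * (((l : NNReal)⁻¹ : NNReal) : ℝ) ^ n := by gcongr
      _ = 1 := by
        rw [← mul_pow]
        push_cast
        rw [mul_inv_cancel₀ hl1.ne', one_pow]
  refine lt_of_lt_of_le ?_ h
  rw [ENNReal.coe_pos]
  exact inv_pos.mpr (by exact_mod_cast hl.out.pos)

variable [CompleteSpace L]

include l in
/-- Local structure of the exponential -/
theorem exp_local : ∃ s ∈ 𝓝 (0 : L), (∀ x ∈ s, ∀ y ∈ s, exp (x + y) = exp x * exp y) ∧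
    Set.InjOn (exp : L → L) s ∧ (∀ x ∈ s, ‖exp x - 1‖ < 1) ∧
    (∀ f : L →+* L, Continuous f → ∀ x ∈ s, f (exp x) = exp (f x)) := by
  have hr := radius_pos l L
  have hd := hasStrictFDerivAt_exp_zero_of_radius_pos hr
  have hd' : HasStrictFDerivAt (exp : L → L)
      ((ContinuousLinearEquiv.refl ℚ_[l] L : L ≃L[ℚ_[l]] L) : L →L[ℚ_[l]] L) 0 := hd
  set e := hd'.toOpenPartialHomeomorph (exp : L → L) with he
  have hs : e.source ∈ 𝓝 (0 : L) := e.open_source.mem_nhds hd'.mem_toOpenPartialHomeomorph_source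
  have hinj : Set.InjOn (exp : L → L) e.source := e.injOn
  have hball : Metric.eball (0 : L) (expSeries ℚ_[l] L).radius ∈ 𝓝 (0 : L) :=
    Metric.eball_mem_nhds _ hr
  have hcont : ContinuousAt (exp : L → L) 0 := hd.continuousAt
  have h1 : {x : L | ‖exp x - 1‖ < 1} ∈ 𝓝 (0 : L) := by
    have h2 : ContinuousAt (fun x : L => ‖exp x - 1‖) 0 := (hcont.sub continuousAt_const).norm
    have h3 : (fun x : L => ‖exp x - 1‖) 0 < 1 := by
      simp [exp_zero]
    exact h2.eventually_lt continuousAt_const h3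
  refine ⟨e.source ∩ Metric.eball (0 : L) (expSeries ℚ_[l] L).radius ∩ {x : L | ‖exp x - 1‖ < 1},
    inter_mem (inter_mem hs hball) h1, ?_, ?_, ?_, ?_⟩
  · intro x hx y hy
    exact exp_add_of_commute_of_mem_ball (Commute.all x y) hx.1.2 hy.1.2
  · exact hinj.mono fun x hx => hx.1.1
  · exact fun x hx => hx.2
  · intro f hf x hx
    exact map_exp_of_mem_ball f hf x hx.1.2

include l in
theorem exp_image_mem_nhds {t : Set L} (ht : t ∈ 𝓝 (0 : L)) : (exp : L → L) '' t ∈ 𝓝 (1 : L) := by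
  have hr := radius_pos l L
  have hd := hasStrictFDerivAt_exp_zero_of_radius_pos hr
  have hd' : HasStrictFDerivAt (exp : L → L)
      ((ContinuousLinearEquiv.refl ℚ_[l] L : L ≃L[ℚ_[l]] L) : L →L[ℚ_[l]] L) 0 := hd
  have := hd'.map_nhds_eq_of_equiv
  rw [exp_zero] at this
  rw [← this]
  exact image_mem_map ht

end Exp

end Fermat.Agent.LocalCFT
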