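import Fermat.Agent.LocalCFT.Exp
import Fermat.Agent.LocalCFT.Herbrand
import Fermat.Agent.LocalCFT.NormIndex

/-!
# The index of the `p`-th powers in the multiplicative group of a local field
-/

set_option autoImplicit false
set_option linter.style.haveILetI false

namespace Fermat.Agent.LocalCFT

open NormedSpace Module Filter Topology

section lattice

variable (l : ℕ) [hl : Fact l.Prime] (L : Type) [NormedField L] [NormedAlgebra ℚ_[l] L]
  [FiniteDimensional ℚ_[l] L]

/-- the lattice map -/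
noncomputable def latMap (n : ℕ) : (Fin (finrank ℚ_[l] L) → ℤ_[l]) →+ L where
  toFun x := ∑ i, ((l : ℚ_[l]) ^ n * (x i : ℚ_[l])) • finBasis ℚ_[l] L i
  map_zero' := by simp
  map_add' x y := by
    rw [← Finset.sum_add_distrib]
    refine Finset.sum_congr rfl fun i _ => ?_
    rw [← add_smul, ← mul_add]
    rfl

theorem latMap_apply (n : ℕ) (x : Fin (finrank ℚ_[l] L) → ℤ_[l]) :
    latMap l L n x = ∑ i, ((l : ℚ_[l]) ^ n * (x i : ℚ_[l])) • finBasis ℚ_[l] L i := rfl

theorem exists_latMap_subset {s : Set L} (hs : s ∈ 𝓝 (0 : L)) :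
    ∃ n, ∀ x, latMap l L n x ∈ s := by
  obtain ⟨ε, hε, hεs⟩ := Metric.mem_nhds_iff.mp hs
  set C : ℝ := ∑ i, ‖finBasis ℚ_[l] L i‖ with hC
  have hC0 : 0 ≤ C := Finset.sum_nonneg fun g _ => norm_nonneg _
  have hl1 : (1 : ℝ) < l := by exact_mod_cast hl.out.one_lt
  have hr : 0 < ε / (C + 1) := div_pos hε (by positivity)
  obtain ⟨n, hn⟩ := exists_pow_lt_of_lt_one hr (inv_lt_one_of_one_lt₀ hl1)
  refine ⟨n, fun x => hεs ?_⟩
  rw [mem_ball_zero_iff]
  have h1 : ‖latMap l L n x‖ ≤ ∑ i, (ε / (C + 1)) * ‖finBasis ℚ_[l] L i‖ := by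
    rw [latMap_apply]
    refine (norm_sum_le _ _).trans (Finset.sum_le_sum fun g _ => ?_)
    rw [norm_smul, norm_mul, norm_pow, Padic.norm_p]
    refine mul_le_mul_of_nonneg_right ?_ (norm_nonneg _)
    calc (l : ℝ)⁻¹ ^ n * ‖(x g : ℚ_[l])‖ ≤ (l : ℝ)⁻¹ ^ n * 1 := by
          gcongr
          exact PadicInt.norm_le_one (x g)
      _ ≤ ε / (C + 1) := by rw [mul_one]; exact hn.le
  rw [← Finset.mul_sum, ← hC] at h1
  refine h1.trans_lt ?_
  rw [div_mul_eq_mul_div, div_lt_iff₀ (by positivity)]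
  nlinarith

theorem range_latMap_mem_nhds (n : ℕ) : Set.range (latMap l L n) ∈ 𝓝 (0 : L) := by
  have hl0 : (0 : ℝ) < l := by exact_mod_cast hl.out.pos
  have hl0' : (l : ℚ_[l]) ≠ 0 := by exact_mod_cast hl.out.ne_zero
  have h1 : ∀ i, {x : L | ‖(finBasis ℚ_[l] L).repr x i‖ < ((l : ℝ)⁻¹) ^ n} ∈ 𝓝 (0 : L) := by
    intro i
    let φ : L →ₗ[ℚ_[l]] ℚ_[l] := (finBasis ℚ_[l] L).coord i
    have hφ : Continuous φ := φ.continuous_of_finiteDimensional
    have h2 : ContinuousAt (fun x => ‖φ x‖) 0 := hφ.norm.continuousAt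
    have h3 : (fun x : L => ‖φ x‖) 0 < ((l : ℝ)⁻¹) ^ n := by
      simp only [map_zero, norm_zero]
      positivity
    exact h2.eventually_lt continuousAt_const h3
  have h2 : (⋂ i, {x : L | ‖(finBasis ℚ_[l] L).repr x i‖ < ((l : ℝ)⁻¹) ^ n}) ∈ 𝓝 (0 : L) :=
    Filter.iInter_mem.mpr h1
  refine mem_of_superset h2 fun x hx => ?_
  have h3 : ∀ i, ‖((l : ℚ_[l]) ^ n)⁻¹ * (finBasis ℚ_[l] L).repr x i‖ ≤ 1 := by
    intro i
    have h4' : ‖(finBasis ℚ_[l] L).repr x i‖ < ((l : ℝ)⁻¹) ^ n := Set.mem_iInter.mp hx i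
    have h4 := h4'.le
    rw [norm_mul, norm_inv, norm_pow, Padic.norm_p, ← inv_pow, inv_inv]
    have h5 : (l : ℝ) ^ n * ((l : ℝ)⁻¹) ^ n = 1 := by
      rw [← mul_pow, mul_inv_cancel₀ hl0.ne', one_pow]
    calc (l : ℝ) ^ n * ‖(finBasis ℚ_[l] L).repr x i‖ ≤ (l : ℝ) ^ n * ((l : ℝ)⁻¹) ^ n := by gcongr
      _ = 1 := h5
  let c : Fin (finrank ℚ_[l] L) → ℤ_[l] := fun i => ⟨_, h3 i⟩
  have hc : ∀ i, (c i : ℚ_[l]) = ((l : ℚ_[l]) ^ n)⁻¹ * (finBasis ℚ_[l] L).repr x i := fun i => rfl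
  refine ⟨c, ?_⟩
  rw [latMap_apply]
  conv_rhs => rw [← (finBasis ℚ_[l] L).sum_repr x]
  refine Finset.sum_congr rfl fun i _ => ?_
  rw [hc, mul_inv_cancel_left₀ (pow_ne_zero n hl0')]

end lattice

section index

variable {A : Type*} [CommGroup A] {T : Type*} [AddCommGroup T]

/-- index of the image of `p` -/
theorem relIndex_pow_le {p : ℕ} {F : Type*} [AddCommGroup F] [Finite F] (q : T →+ F)
    (hq : ∀ x, q x = 0 → ∃ y, p • y = x) (ψ : Multiplicative T →* A) :
    (ψ.range.map (powMonoidHom p)).relIndex ψ.range ≠ 0 ∧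
      (ψ.range.map (powMonoidHom p)).relIndex ψ.range ≤ Nat.card F := by
  set P : Subgroup (Multiplicative T) := (powMonoidHom p : Multiplicative T →* Multiplicative T).range
    with hP
  have h1 : ψ.range.map (powMonoidHom p) = P.map ψ := by
    rw [hP, MonoidHom.map_range, MonoidHom.map_range]
    congr 1
    ext x
    simp
  have h2 : (ψ.range.map (powMonoidHom p)).relIndex ψ.range = (P ⊔ ψ.ker).index := by
    rw [h1, MonoidHom.range_eq_map ψ, Subgroup.relIndex_map_map, top_sup_eq,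
      Subgroup.relIndex_top_right]
  have h3 : (AddMonoidHom.toMultiplicative q).ker ≤ P := by
    intro x hx
    obtain ⟨y, hy⟩ := hq (Multiplicative.toAdd x) hx
    exact ⟨Multiplicative.ofAdd y, hy⟩
  have h4 : (AddMonoidHom.toMultiplicative q).ker.index ≤ Nat.card F := by
    rw [Subgroup.index_ker]
    exact Nat.card_le_card_of_injective (β := Multiplicative F) (fun x => x.1)
      Subtype.val_injective
  have h5 : (AddMonoidHom.toMultiplicative q).ker.index ≠ 0 := by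
    rw [Subgroup.index_ker]
    have : Finite (Multiplicative F) := ‹Finite F›
    exact Nat.card_pos.ne'
  have h6 : (P ⊔ ψ.ker).index ∣ (AddMonoidHom.toMultiplicative q).ker.index :=
    Subgroup.index_dvd_of_le (h3.trans le_sup_left)
  rw [h2]
  exact ⟨fun h => h5 (Nat.eq_zero_of_zero_dvd (h ▸ h6)),
    (Nat.le_of_dvd (Nat.pos_of_ne_zero h5) h6).trans h4⟩

/-- Bound for the index of the `p`-th powers, from a subgroup of finite index. -/
theorem index_pow_le {p : ℕ} {F : Type*} [AddCommGroup F] [Finite F] (q : T →+ F)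
    (hq : ∀ x, q x = 0 → ∃ y, p • y = x) (ψ : Multiplicative T →* A) (hψ : ψ.range.index ≠ 0)
    (hk : Finite (powMonoidHom p : A →* A).ker) :
    (powMonoidHom p : A →* A).range.index ≠ 0 ∧
      (powMonoidHom p : A →* A).range.index ≤ Nat.card F * Nat.card (powMonoidHom p : A →* A).ker := by
  have h1 := herbrand_mul (1 : A →* A) (powMonoidHom p) (fun x => rfl) (fun x => by simp)
    ψ.range (by rintro _ ⟨x, hx, rfl⟩; exact one_mem _)
    (by
      rintro _ ⟨x, hx, rfl⟩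
      exact pow_mem hx p) hψ
  obtain ⟨h2, h3⟩ := relIndex_pow_le q hq ψ
  have h4 : (1 : A →* A).ker = ⊤ := MonoidHom.ker_one
  have h5 : (1 : A →* A).range = ⊥ := by
    ext x
    simp
  have h6 : ψ.range.map (1 : A →* A) = ⊥ := by
    rw [eq_bot_iff]
    rintro _ ⟨x, hx, rfl⟩
    exact one_mem _
  rw [h4, h5, h6, inf_top_eq, Subgroup.relIndex_top_right, Subgroup.relIndex_bot_left,
    Subgroup.relIndex_bot_left] at h1
  have h7 : Finite ↥(ψ.range ⊓ (powMonoidHom p : A →* A).ker) :=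
    Finite.of_injective (β := (powMonoidHom p : A →* A).ker) (fun x => ⟨x.1, x.2.2⟩)
      fun x y hxy => Subtype.ext (congrArg (fun z : (powMonoidHom p : A →* A).ker => (z : A)) hxy)
  have h8 : 0 < Nat.card ↥(ψ.range ⊓ (powMonoidHom p : A →* A).ker) := Nat.card_pos
  have h9 : 0 < Nat.card (powMonoidHom p : A →* A).ker := Nat.card_pos
  constructor
  · intro h0
    rw [h0, zero_mul] at h1
    rcases Nat.mul_eq_zero.mp h1.symm with h | h
    · exact h2 h
    · exact h9.ne' h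
  · calc (powMonoidHom p : A →* A).range.index
        ≤ (powMonoidHom p : A →* A).range.index *
          Nat.card ↥(ψ.range ⊓ (powMonoidHom p : A →* A).ker) := Nat.le_mul_of_pos_right _ h8
      _ = (ψ.range.map (powMonoidHom p)).relIndex ψ.range *
          Nat.card (powMonoidHom p : A →* A).ker := h1
      _ ≤ _ := Nat.mul_le_mul_right _ h3

end index

section main

variable (l : ℕ) [hl : Fact l.Prime] (L : Type) [NormedField L] [NormedAlgebra ℚ_[l] L]
  [FiniteDimensional ℚ_[l] L] (p : ℕ) [hp : Fact p.Prime]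

theorem finite_ker_pow : Finite (powMonoidHom p : Lˣ →* Lˣ).ker ∧
    Nat.card (powMonoidHom p : Lˣ →* Lˣ).ker ≤ p := by
  haveI : NeZero p := ⟨hp.out.ne_zero⟩
  have h1 : (powMonoidHom p : Lˣ →* Lˣ).ker = rootsOfUnity p L := by
    ext x
    rw [MonoidHom.mem_ker, mem_rootsOfUnity]
    rfl
  rw [h1]
  exact ⟨inferInstance, card_rootsOfUnity L p⟩

/-- **The index of the `p`-th powers.** -/
theorem index_pow_units_le : (powMonoidHom p : Lˣ →* Lˣ).range.index ≠ 0 ∧
    (powMonoidHom p : Lˣ →* Lˣ).range.index ≤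
      p ^ (2 + if l = p then finrank ℚ_[l] L else 0) := by
  have : CompleteSpace L := FiniteDimensional.complete ℚ_[l] L
  obtain ⟨s, hs, hs1, hs2, hs3, hs4⟩ := exp_local l L
  obtain ⟨n, hn⟩ := exists_latMap_subset l L hs
  have hexp0 : ∀ x : L, x ∈ s → -x ∈ s → exp x ≠ 0 := by
    intro x hx hx' h0
    have := hs1 _ hx _ hx'
    rw [add_neg_cancel, exp_zero, h0, zero_mul] at this
    exact one_ne_zero this
  have hlat0 : ∀ x, exp (latMap l L n x) ≠ 0 := fun x =>
    hexp0 _ (hn x) (by rw [← map_neg]; exact hn (-x))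
  have hl0 : (algebraMap ℚ_[l] L (l : ℚ_[l])) ≠ 0 := by
    rw [map_ne_zero]; exact_mod_cast hl.out.ne_zero
  set ϖ : Lˣ := Units.mk0 _ hl0 with hϖdef
  have hϖval : (ϖ : L) = algebraMap ℚ_[l] L (l : ℚ_[l]) := rfl
  have hϖ1 : ‖(ϖ : L)‖ < 1 := by
    rw [hϖval, norm_algebraMap', Padic.norm_p]
    exact inv_lt_one_of_one_lt₀ (by exact_mod_cast hl.out.one_lt)
  let ψ : Multiplicative ((Fin (finrank ℚ_[l] L) → ℤ_[l]) × ℤ) →* Lˣ :=
    { toFun := fun x => Units.mk0 _ (hlat0 (Multiplicative.toAdd x).1) *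
        ϖ ^ (Multiplicative.toAdd x).2
      map_one' := by
        apply Units.ext
        simp [exp_zero]
      map_mul' := fun x y => by
        apply Units.ext
        rw [Units.val_mul, Units.val_mul, Units.val_mul, Units.val_mul, Units.val_mk0,
          Units.val_mk0, Units.val_mk0, toAdd_mul, Prod.fst_add, Prod.snd_add, map_add,
          hs1 _ (hn _) _ (hn _), zpow_add, Units.val_mul]
        ring }
  have hψ : ψ.range.index ≠ 0 := by
    apply index_ne_zero_of_nhds l ψ.range _ ϖ hϖ1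
      ⟨Multiplicative.ofAdd (0, 1), by
        apply Units.ext
        change exp (latMap l L n 0) * _ = _
        rw [map_zero, exp_zero, one_mul]
        exact congrArg Units.val (zpow_one ϖ)⟩
    refine mem_of_superset (exp_image_mem_nhds l L (range_latMap_mem_nhds l L n)) ?_
    rintro _ ⟨_, ⟨x, rfl⟩, rfl⟩
    refine ⟨ψ (Multiplicative.ofAdd (x, 0)), ⟨_, rfl⟩, ?_⟩
    change exp (latMap l L n x) * ((ϖ ^ (0 : ℤ) : Lˣ) : L) = _
    rw [zpow_zero, Units.val_one, mul_one]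
  obtain ⟨hk1, hk2⟩ := finite_ker_pow L p
  haveI : NeZero p := ⟨hp.out.ne_zero⟩
  by_cases hlp : l = p
  · subst hlp
    rw [if_pos rfl]
    let q : ((Fin (finrank ℚ_[l] L) → ℤ_[l]) × ℤ) →+ ((Fin (finrank ℚ_[l] L) → ZMod l) × ZMod l) :=
      { toFun := fun x => (fun i => PadicInt.toZMod (x.1 i), (x.2 : ZMod l))
        map_zero' := by
          refine Prod.ext (funext fun i => ?_) ?_
          · exact map_zero _
          · exact Int.cast_zero
        map_add' := fun x y => by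
          refine Prod.ext (funext fun i => ?_) ?_
          · exact map_add _ _ _
          · exact Int.cast_add _ _ }
    have hq : ∀ x, q x = 0 → ∃ y, l • y = x := by
      intro x hx
      have h1 : ∀ i, ∃ c : ℤ_[l], x.1 i = (l : ℤ_[l]) * c := by
        intro i
        have h2 : PadicInt.toZMod (x.1 i) = 0 := congrFun (congrArg Prod.fst hx) i
        rw [← RingHom.mem_ker, PadicInt.ker_toZMod, PadicInt.maximalIdeal_eq_span_p,
          Ideal.mem_span_singleton] at h2
        exact h2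
      choose c hc using h1
      have h3 : ((x.2 : ℤ) : ZMod l) = 0 := congrArg Prod.snd hx
      obtain ⟨m, hm⟩ := (ZMod.intCast_zmod_eq_zero_iff_dvd _ _).mp h3
      refine ⟨(c, m), Prod.ext (funext fun i => ?_) ?_⟩
      · change l • c i = x.1 i
        rw [hc, nsmul_eq_mul]
      · change l • m = x.2
        rw [hm, nsmul_eq_mul]
    obtain ⟨h1, h2⟩ := index_pow_le q hq ψ hψ hk1
    refine ⟨h1, h2.trans ?_⟩
    have h3 : Nat.card ((Fin (finrank ℚ_[l] L) → ZMod l) × ZMod l) = l ^ (finrank ℚ_[l] L + 1) := by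
      rw [Nat.card_prod, Nat.card_pi, Nat.card_zmod, Finset.prod_const, Finset.card_univ,
        Fintype.card_fin, pow_succ]
    rw [h3]
    calc l ^ (finrank ℚ_[l] L + 1) * Nat.card (powMonoidHom l : Lˣ →* Lˣ).ker
        ≤ l ^ (finrank ℚ_[l] L + 1) * l := Nat.mul_le_mul_left _ hk2
      _ = l ^ (2 + finrank ℚ_[l] L) := by ring
  · rw [if_neg hlp]
    have hunit : IsUnit ((p : ℕ) : ℤ_[l]) := by
      rw [PadicInt.isUnit_iff]
      have h1 : ¬ ‖((p : ℤ) : ℤ_[l])‖ < 1 := by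
        rw [PadicInt.norm_int_lt_one_iff_dvd]
        intro h2
        have h3 := (Nat.prime_dvd_prime_iff_eq hl.out hp.out).mp (by exact_mod_cast h2)
        exact hlp h3
      have h2 : ‖((p : ℕ) : ℤ_[l])‖ ≤ 1 := PadicInt.norm_le_one _
      have h3 : ‖((p : ℤ) : ℤ_[l])‖ = ‖((p : ℕ) : ℤ_[l])‖ := by rw [Int.cast_natCast]
      rw [h3] at h1
      exact le_antisymm h2 (not_lt.mp h1)
    obtain ⟨u, hu⟩ := hunit
    let q : ((Fin (finrank ℚ_[l] L) → ℤ_[l]) × ℤ) →+ ZMod p :=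
      { toFun := fun x => (x.2 : ZMod p)
        map_zero' := Int.cast_zero
        map_add' := fun x y => Int.cast_add _ _ }
    have hq : ∀ x, q x = 0 → ∃ y, p • y = x := by
      intro x hx
      obtain ⟨m, hm⟩ := (ZMod.intCast_zmod_eq_zero_iff_dvd _ _).mp hx
      refine ⟨(fun i => ((u⁻¹ : ℤ_[l]ˣ) : ℤ_[l]) * x.1 i, m), Prod.ext (funext fun i => ?_) ?_⟩
      · change p • (((u⁻¹ : ℤ_[l]ˣ) : ℤ_[l]) * x.1 i) = x.1 i
        rw [nsmul_eq_mul, ← hu, Units.mul_inv_cancel_left]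
      · change p • m = x.2
        rw [hm, nsmul_eq_mul]
    obtain ⟨h1, h2⟩ := index_pow_le q hq ψ hψ hk1
    refine ⟨h1, h2.trans ?_⟩
    rw [Nat.card_zmod, add_zero, sq]
    exact Nat.mul_le_mul_left _ hk2

end main

end Fermat.Agent.LocalCFT
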