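import Fermat.Agent.Coh.GalDict
import Fermat.Agent.LocalCFT.NormIndex

/-!
# The residue field of the algebraic closure of `ℚ_l` and the Galois action on it
-/

set_option autoImplicit false
set_option linter.unusedSectionVars false

namespace Fermat.Agent.LocalCFT

open Fermat.Agent.Coh Fermat.Agent.GalD Module IntermediateField

variable {l : ℕ} [hl : Fact l.Prime]

theorem norm_gal (g : Gal(PadicAlgCl l/ℚ_[l])) (x : PadicAlgCl l) : ‖g x‖ = ‖x‖ := by
  rw [← PadicAlgCl.spectralNorm_eq, ← PadicAlgCl.spectralNorm_eq]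
  exact (spectralNorm_eq_of_equiv g x).symm

variable (l) in
/-- the ring of integers of the algebraic closure -/
noncomputable def OO : ValuationSubring (PadicAlgCl l) :=
  (NormedField.valuation (K := PadicAlgCl l)).valuationSubring

theorem mem_OO {x : PadicAlgCl l} : x ∈ OO l ↔ ‖x‖ ≤ 1 := by
  rw [OO, Valuation.mem_valuationSubring_iff, NormedField.valuation_apply]
  exact_mod_cast Iff.rfl

variable (l) in
/-- the residue field of the algebraic closure -/
abbrev KK : Type := IsLocalRing.ResidueField (OO l)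

/-- the residue map -/
noncomputable abbrev rd (x : OO l) : KK l := IsLocalRing.residue (OO l) x

theorem isUnit_OO_iff (x : OO l) : IsUnit x ↔ ‖(x : PadicAlgCl l)‖ = 1 := by
  constructor
  · rintro ⟨u, rfl⟩
    have h1 := mem_OO.mp (u : OO l).2
    have h2 := mem_OO.mp ((u⁻¹ : (OO l)ˣ) : OO l).2
    have h3 : ‖((u : OO l) : PadicAlgCl l)‖ * ‖(((u⁻¹ : (OO l)ˣ) : OO l) : PadicAlgCl l)‖ = 1 := by
      rw [← norm_mul, ← MulMemClass.coe_mul, Units.mul_inv, OneMemClass.coe_one, norm_one]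
    nlinarith [norm_nonneg ((u : OO l) : PadicAlgCl l),
      norm_nonneg (((u⁻¹ : (OO l)ˣ) : OO l) : PadicAlgCl l)]
  · intro h
    have h0 : (x : PadicAlgCl l) ≠ 0 := by
      intro h0
      rw [h0, norm_zero] at h
      exact zero_ne_one h
    have h1 : (x : PadicAlgCl l)⁻¹ ∈ OO l := by
      rw [mem_OO, norm_inv, h, inv_one]
    exact ⟨⟨x, ⟨_, h1⟩, Subtype.ext (mul_inv_cancel₀ h0), Subtype.ext (inv_mul_cancel₀ h0)⟩, rfl⟩

theorem rd_eq_zero_iff (x : OO l) : rd x = 0 ↔ ‖(x : PadicAlgCl l)‖ < 1 := by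
  rw [rd, IsLocalRing.residue_eq_zero_iff, IsLocalRing.mem_maximalIdeal, mem_nonunits_iff,
    isUnit_OO_iff]
  exact ⟨fun h => lt_of_le_of_ne (mem_OO.mp x.2) h, fun h => h.ne⟩

theorem rd_eq_iff (x y : OO l) : rd x = rd y ↔ ‖(x : PadicAlgCl l) - y‖ < 1 := by
  rw [← sub_eq_zero, ← map_sub, rd_eq_zero_iff]
  rfl

theorem rd_surjective : Function.Surjective (rd (l := l)) := IsLocalRing.residue_surjective

theorem norm_natCast_l : ‖(l : PadicAlgCl l)‖ < 1 := by
  have h : (l : PadicAlgCl l) = algebraMap ℚ_[l] (PadicAlgCl l) (l : ℚ_[l]) := by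
    rw [map_natCast]
  rw [h, norm_algebraMap', Padic.norm_p]
  exact inv_lt_one_of_one_lt₀ (by exact_mod_cast hl.out.one_lt)

theorem norm_natCast_le (n : ℕ) : ‖(n : PadicAlgCl l)‖ ≤ 1 := by
  have h : (n : PadicAlgCl l) = algebraMap ℚ_[l] (PadicAlgCl l) (n : ℚ_[l]) := by
    rw [map_natCast]
  rw [h, norm_algebraMap']
  exact_mod_cast Padic.norm_int_le_one (p := l) (n : ℤ)

theorem norm_natCast_eq_one {n : ℕ} (hn : n.Coprime l) : ‖(n : PadicAlgCl l)‖ = 1 := by
  have h : (n : PadicAlgCl l) = algebraMap ℚ_[l] (PadicAlgCl l) (n : ℚ_[l]) := by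
    rw [map_natCast]
  rw [h, norm_algebraMap']
  have h2 := Padic.norm_natCast_eq_one_iff (p := l) (n := n)
  rw [h2]
  exact hn.symm

instance charP_KK : CharP (KK l) l := by
  have h0 : ((l : ℕ) : KK l) = 0 := by
    have h1 : ((l : ℕ) : KK l) = rd ((l : ℕ) : OO l) := by rw [rd, map_natCast]
    rw [h1, rd_eq_zero_iff]
    exact norm_natCast_l
  exact (CharP.charP_iff_prime_eq_zero hl.out).mpr h0

/-- A root of unity of order prime to `l` congruent to `1` is trivial. -/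
theorem eq_one_of_pow {N : ℕ} (hN : N.Coprime l) {u : PadicAlgCl l} (hu : u ^ N = 1)
    (h1 : ‖u - 1‖ < 1) : u = 1 := by
  by_contra hne
  have hN0 : N ≠ 0 := by
    rintro rfl
    rw [Nat.coprime_zero_left] at hN
    exact hl.out.one_lt.ne' hN
  have hu1 : u - 1 ≠ 0 := sub_ne_zero.mpr hne
  have h2 : ∑ i ∈ Finset.range N, u ^ i = 0 := by
    have := mul_neg_geom_sum u N
    have h3 := geom_sum_mul u N
    rw [hu, sub_self] at h3
    exact (mul_eq_zero.mp h3).resolve_right hu1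
  have hun : ‖u‖ = 1 := by
    have : ‖u‖ ^ N = 1 := by rw [← norm_pow, hu, norm_one]
    exact (pow_eq_one_iff_of_nonneg (norm_nonneg _) hN0).mp this
  -- each `u ^ i - 1` is small
  have h3 : ∀ i : ℕ, ‖u ^ i - 1‖ < 1 := by
    intro i
    rw [← geom_sum_mul, norm_mul]
    have h4 : ‖∑ j ∈ Finset.range i, u ^ j‖ ≤ 1 := by
      apply IsUltrametricDist.norm_sum_le_of_forall_le_of_nonneg zero_le_one
      intro j _
      rw [norm_pow, hun, one_pow]
    calc ‖∑ j ∈ Finset.range i, u ^ j‖ * ‖u - 1‖ ≤ 1 * ‖u - 1‖ :=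
          mul_le_mul_of_nonneg_right h4 (norm_nonneg _)
      _ < 1 := by rw [one_mul]; exact h1
  have h5 : ‖(N : PadicAlgCl l)‖ < 1 := by
    have h6 : (N : PadicAlgCl l) = -∑ i ∈ Finset.range N, (u ^ i - 1) := by
      rw [Finset.sum_sub_distrib, h2, Finset.sum_const, Finset.card_range]
      simp
    rw [h6, norm_neg]
    have hne' : (Finset.range N).Nonempty := Finset.nonempty_range_iff.mpr hN0
    obtain ⟨i, hi, hle⟩ := IsUltrametricDist.exists_norm_finsetSum_le (Finset.range N)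
      (fun i => u ^ i - 1)
    exact hle.trans_lt (h3 i)
  rw [norm_natCast_eq_one hN] at h5
  exact lt_irrefl _ h5

theorem coprime_pow_sub_one {m : ℕ} (hm : m ≠ 0) : (l ^ m - 1).Coprime l := by
  rw [Nat.coprime_comm, hl.out.coprime_iff_not_dvd]
  intro h
  have h1 : l ∣ l ^ m := dvd_pow_self l hm
  have h2 : 1 ≤ l ^ m := Nat.one_le_pow _ _ hl.out.pos
  have h3 := (Nat.dvd_sub h1 h)
  rw [Nat.sub_sub_self h2] at h3
  exact hl.out.one_lt.ne' (Nat.dvd_one.mp h3)

theorem pow_sub_one_pos {m : ℕ} (hm : m ≠ 0) : 0 < l ^ m - 1 := by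
  have := Nat.one_lt_pow hm hl.out.one_lt
  omega

/-- the subfield of the residue field with `l ^ m` elements -/
noncomputable def FF' (l : ℕ) [hl : Fact l.Prime] (m : ℕ) : Subfield (KK l) :=
  (iterateFrobenius (KK l) l m).eqLocusField (RingHom.id _)

theorem mem_FF' {m : ℕ} {y : KK l} : y ∈ FF' l m ↔ y ^ (l ^ m) = y := by
  rw [FF', RingHom.mem_eqLocusField, iterateFrobenius_def, RingHom.id_apply]

theorem exists_primitive {m : ℕ} (hm : m ≠ 0) :
    ∃ z : PadicAlgCl l, IsPrimitiveRoot z (l ^ m - 1) := by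
  have : NeZero ((l ^ m - 1 : ℕ) : PadicAlgCl l) := ⟨by
    exact_mod_cast (pow_sub_one_pos (l := l) hm).ne'⟩
  have : NeZero (l ^ m - 1) := ⟨(pow_sub_one_pos (l := l) hm).ne'⟩
  exact ⟨_, (IsCyclotomicExtension.zeta_spec (l ^ m - 1) (PadicAlgCl l) (PadicAlgCl l))⟩

theorem norm_of_pow_eq_one {N : ℕ} (hN : N ≠ 0) {u : PadicAlgCl l} (hu : u ^ N = 1) :
    ‖u‖ = 1 := by
  have : ‖u‖ ^ N = 1 := by rw [← norm_pow, hu, norm_one]
  exact (pow_eq_one_iff_of_nonneg (norm_nonneg _) hN).mp this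

/-- Teichmüller lifts of elements of `FF' l m` -/
theorem exists_teich {m : ℕ} (hm : m ≠ 0) (y : KK l) (hy : y ∈ FF' l m) (hy0 : y ≠ 0) :
    ∃ z : OO l, (z : PadicAlgCl l) ^ (l ^ m - 1) = 1 ∧ rd z = y := by
  obtain ⟨z, hz⟩ := exists_primitive (l := l) hm
  have hN := (pow_sub_one_pos (l := l) hm).ne'
  have hzO : z ∈ OO l := by
    rw [mem_OO]
    exact (norm_of_pow_eq_one hN hz.pow_eq_one).le
  -- the reduction of `z` is a primitive root
  have hprim : IsPrimitiveRoot (rd ⟨z, hzO⟩ : KK l) (l ^ m - 1) := by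
    refine ⟨?_, fun i hi => ?_⟩
    · rw [rd, ← map_pow, ← map_one (IsLocalRing.residue (OO l))]
      congr 1
      exact Subtype.ext hz.pow_eq_one
    · apply hz.dvd_of_pow_eq_one
      rw [rd, ← map_pow, ← map_one (IsLocalRing.residue (OO l)), ← rd, ← rd, rd_eq_iff] at hi
      apply eq_one_of_pow (coprime_pow_sub_one (l := l) hm) _ hi
      change (z ^ i) ^ (l ^ m - 1) = 1
      rw [← pow_mul, mul_comm, pow_mul, hz.pow_eq_one, one_pow]
  have hy1 : y ^ (l ^ m - 1) = 1 := by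
    rw [mem_FF'] at hy
    have h1 : 1 ≤ l ^ m := Nat.one_le_pow _ _ hl.out.pos
    have h2 : y ^ (l ^ m - 1) * y = 1 * y := by
      rw [← pow_succ, Nat.sub_add_cancel h1, hy, one_mul]
    exact mul_right_cancel₀ hy0 h2
  have : NeZero (l ^ m - 1) := ⟨hN⟩
  obtain ⟨i, hi, hi2⟩ := hprim.eq_pow_of_pow_eq_one hy1
  refine ⟨⟨z, hzO⟩ ^ i, ?_, ?_⟩
  · change (z ^ i) ^ (l ^ m - 1) = 1
    rw [← pow_mul, mul_comm, pow_mul, hz.pow_eq_one, one_pow]
  · rw [rd, map_pow]
    exact hi2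

theorem card_FF' {m : ℕ} (hm : m ≠ 0) : Nat.card (FF' l m) = l ^ m := by
  obtain ⟨z, hz⟩ := exists_primitive (l := l) hm
  have hN := (pow_sub_one_pos (l := l) hm).ne'
  have hzO : z ∈ OO l := by
    rw [mem_OO]
    exact (norm_of_pow_eq_one hN hz.pow_eq_one).le
  have hprim : IsPrimitiveRoot (rd ⟨z, hzO⟩ : KK l) (l ^ m - 1) := by
    refine ⟨?_, fun i hi => ?_⟩
    · rw [rd, ← map_pow, ← map_one (IsLocalRing.residue (OO l))]
      congr 1
      exact Subtype.ext hz.pow_eq_one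
    · apply hz.dvd_of_pow_eq_one
      rw [rd, ← map_pow, ← map_one (IsLocalRing.residue (OO l)), ← rd, ← rd, rd_eq_iff] at hi
      apply eq_one_of_pow (coprime_pow_sub_one (l := l) hm) _ hi
      change (z ^ i) ^ (l ^ m - 1) = 1
      rw [← pow_mul, mul_comm, pow_mul, hz.pow_eq_one, one_pow]
  have hle1 : 1 ≤ l ^ m := Nat.one_le_pow _ _ hl.out.pos
  -- the polynomial `X ^ (l ^ m) - X`
  have hlt : 1 < l ^ m := Nat.one_lt_pow hm hl.out.one_lt
  have h1 : (FF' l m : Set (KK l)) =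
      ((Polynomial.X ^ (l ^ m) - Polynomial.X : Polynomial (KK l)).rootSet (KK l)) := by
    ext y
    rw [Polynomial.mem_rootSet_of_ne (FiniteField.X_pow_card_sub_X_ne_zero (KK l) hlt)]
    rw [SetLike.mem_coe, mem_FF', map_sub, map_pow, Polynomial.aeval_X, sub_eq_zero]
  have hfin : (FF' l m : Set (KK l)).Finite := by
    rw [h1]
    exact Polynomial.rootSet_finite _ _
  have hle : Nat.card (FF' l m) ≤ l ^ m := by
    have h2 : Nat.card (FF' l m) = Nat.card
        ((Polynomial.X ^ (l ^ m) - Polynomial.X : Polynomial (KK l)).rootSet (KK l)) := by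
      rw [← h1]
      rfl
    rw [h2]
    refine (Polynomial.ncard_rootSet_le _ _).trans ?_
    rw [FiniteField.X_pow_card_sub_X_natDegree_eq (KK l) hlt]
  refine le_antisymm hle ?_
  -- lower bound from the powers of the primitive root and zero
  have : Finite (FF' l m) := hfin
  let F : Option (Fin (l ^ m - 1)) → FF' l m := fun o => match o with
    | none => 0
    | some i => ⟨(rd ⟨z, hzO⟩ : KK l) ^ (i : ℕ), by
        rw [mem_FF', ← pow_mul, mul_comm, pow_mul]
        congr 1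
        have h3 : l ^ m = (l ^ m - 1) + 1 := by omega
        rw [h3, pow_succ, hprim.pow_eq_one, one_mul]⟩
  have hF : Function.Injective F := by
    rintro (_ | i) (_ | j) hij
    · rfl
    · exfalso
      have h4 := congrArg Subtype.val hij
      have h5 : (0 : KK l) = (rd ⟨z, hzO⟩ : KK l) ^ (j : ℕ) := h4
      exact pow_ne_zero _ (hprim.ne_zero hN) h5.symm
    · exfalso
      have h4 := congrArg Subtype.val hij
      have h5 : (rd ⟨z, hzO⟩ : KK l) ^ (i : ℕ) = 0 := h4
      exact pow_ne_zero _ (hprim.ne_zero hN) h5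
    · have h4 := congrArg Subtype.val hij
      have h5 : (rd ⟨z, hzO⟩ : KK l) ^ (i : ℕ) = (rd ⟨z, hzO⟩ : KK l) ^ (j : ℕ) := h4
      have h6 := hprim.pow_inj i.2 j.2 h5
      rw [Fin.ext h6]
  have h7 := Nat.card_le_card_of_injective F hF
  rw [Nat.card_eq_fintype_card, Fintype.card_option, Fintype.card_fin] at h7
  omega

end Fermat.Agent.LocalCFT
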