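import Fermat.Agent.LocalCFT.EF

/-!
# The unramified `ℤ_p`-extension of a local field and the class formation
-/

set_option autoImplicit false
set_option linter.unusedSectionVars false
set_option linter.style.haveILetI false

namespace Fermat.Agent.LocalCFT

open Fermat.Agent.Coh Fermat.Agent.GalD Module IntermediateField

variable {l : ℕ} [hl : Fact l.Prime] {U U₁ U₂ : Subgroup Gal(PadicAlgCl l/ℚ_[l])}

/-- the action on the ring of integers -/
noncomputable def gOO (g : Gal(PadicAlgCl l/ℚ_[l])) : OO l ≃+* OO l where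
  toFun x := ⟨g x, by rw [mem_OO, norm_gal]; exact mem_OO.mp x.2⟩
  invFun x := ⟨g.symm x, by rw [mem_OO, norm_gal]; exact mem_OO.mp x.2⟩
  left_inv x := Subtype.ext (g.symm_apply_apply _)
  right_inv x := Subtype.ext (g.apply_symm_apply _)
  map_mul' x y := Subtype.ext (map_mul g _ _)
  map_add' x y := Subtype.ext (map_add g _ _)

@[simp] theorem coe_gOO (g : Gal(PadicAlgCl l/ℚ_[l])) (x : OO l) :
    (gOO g x : PadicAlgCl l) = g x := rfl

/-- the action on the residue field -/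
noncomputable def gbar (g : Gal(PadicAlgCl l/ℚ_[l])) : KK l ≃+* KK l :=
  IsLocalRing.ResidueField.mapEquiv (gOO g)

theorem gbar_rd (g : Gal(PadicAlgCl l/ℚ_[l])) (x : OO l) : gbar g (rd x) = rd (gOO g x) := rfl

theorem gbar_mul (g h : Gal(PadicAlgCl l/ℚ_[l])) (y : KK l) :
    gbar (g * h) y = gbar g (gbar h y) := by
  obtain ⟨x, rfl⟩ := rd_surjective y
  rfl

theorem gbar_mem {m : ℕ} (g : Gal(PadicAlgCl l/ℚ_[l])) {y : KK l} (hy : y ∈ FF' l m) :
    gbar g y ∈ FF' l m := by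
  rw [mem_FF'] at hy ⊢
  rw [← map_pow, hy]

theorem FF'_le {m n : ℕ} (h : m ∣ n) : FF' l m ≤ FF' l n := by
  obtain ⟨r, rfl⟩ := h
  intro y hy
  rw [mem_FF'] at hy ⊢
  induction r with
  | zero => simp
  | succ r ih => rw [mul_add, mul_one, pow_add, pow_mul, ih, hy]

theorem finite_FF' {m : ℕ} (hm : m ≠ 0) : Finite (FF' l m) := Nat.finite_of_card_ne_zero (by
  rw [card_FF' hm]
  exact pow_ne_zero _ hl.out.ne_zero)

theorem pow_inj_l {a : ℕ} {x y : KK l} (h : x ^ (l ^ a) = y ^ (l ^ a)) : x = y :=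
  iterateFrobenius_inj (KK l) l a (by rw [iterateFrobenius_def, iterateFrobenius_def]; exact h)

theorem frob_congr {m : ℕ} (hm : m ≠ 0) (a b : ℕ) :
    (∀ y ∈ FF' l m, y ^ (l ^ a) = y ^ (l ^ b)) ↔ a ≡ b [MOD m] := by
  have key : ∀ (a : ℕ) (y : KK l), y ∈ FF' l m → y ^ (l ^ a) = y ^ (l ^ (a % m)) := by
    intro a y hy
    conv_lhs => rw [← Nat.mod_add_div a m]
    rw [pow_add, pow_mul]
    have h1 : y ^ (l ^ (a % m)) ∈ FF' l m := (FF' l m).pow_mem hy _
    have h2 := FF'_le (l := l) (dvd_mul_right m (a / m)) h1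
    rw [mem_FF'] at h2
    exact h2
  constructor
  · intro h
    by_contra hne
    wlog hlt : a % m < b % m generalizing a b with H
    · rcases lt_or_eq_of_le (not_lt.mp hlt) with h1 | h1
      · exact H b a (fun y hy => (h y hy).symm) (fun h2 => hne h2.symm) h1
      · exact hne h1.symm
    have hb : b % m < m := Nat.mod_lt _ (Nat.pos_of_ne_zero hm)
    set c := b % m - a % m with hc
    have hc0 : c ≠ 0 := by omega
    have hcm : c < m := by omega
    have hsub : FF' l m ≤ FF' l c := by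
      intro y hy
      have h3 := h y hy
      rw [key a y hy, key b y hy] at h3
      have h4 : b % m = c + a % m := by omega
      rw [h4, pow_add, pow_mul] at h3
      rw [mem_FF']
      exact (pow_inj_l h3).symm
    have := finite_FF' (l := l) hc0
    have h5 : Nat.card (FF' l m) ≤ Nat.card (FF' l c) :=
      Nat.card_le_card_of_injective (fun y : FF' l m => (⟨y, hsub y.2⟩ : FF' l c))
        fun y y' hyy => Subtype.ext (congrArg (fun z : FF' l c => (z : KK l)) hyy)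
    rw [card_FF' hm, card_FF' hc0] at h5
    have h6 := (Nat.pow_le_pow_iff_right hl.out.one_lt).mp h5
    omega
  · intro h y hy
    rw [key a y hy, key b y hy, h]

noncomputable instance algFF' (m : ℕ) : Algebra (ZMod l) (FF' l m) :=
  have : CharP (FF' l m) l := CharP.subring' (KK l) l (FF' l m).toSubring
  ZMod.algebra (FF' l m) l

theorem exists_frobExp {m : ℕ} (hm : m ≠ 0) (g : Gal(PadicAlgCl l/ℚ_[l])) :
    ∃ k : ℕ, ∀ y ∈ FF' l m, gbar g y = y ^ (l ^ k) := by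
  have hfin := finite_FF' (l := l) hm
  let φ : FF' l m →+* FF' l m :=
    { toFun := fun y => ⟨gbar g y, gbar_mem g y.2⟩
      map_one' := Subtype.ext (map_one _)
      map_mul' := fun x y => Subtype.ext (map_mul _ _ _)
      map_zero' := Subtype.ext (map_zero _)
      map_add' := fun x y => Subtype.ext (map_add _ _ _) }
  have hφ : Function.Bijective φ := by
    rw [← Finite.injective_iff_bijective]
    exact φ.injective
  let φ' : (FF' l m) ≃ₐ[ZMod l] (FF' l m) :=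
    AlgEquiv.ofRingEquiv (f := RingEquiv.ofBijective φ hφ) (fun r => by
      have : (RingEquiv.ofBijective φ hφ) ((algebraMap (ZMod l) (FF' l m)) r) =
        ((RingEquiv.ofBijective φ hφ : FF' l m →+* FF' l m).comp (algebraMap (ZMod l) (FF' l m))) r :=
          rfl
      rw [this]
      congr 1
      exact Subsingleton.elim _ _)
  obtain ⟨n, hn⟩ := (FiniteField.bijective_frobeniusAlgEquivOfAlgebraic_pow (ZMod l)
    (FF' l m)).2 φ'
  refine ⟨n, fun y hy => ?_⟩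
  have h1 := congrArg Subtype.val (DFunLike.congr_fun hn ⟨y, hy⟩)
  have h2 : ((φ' ⟨y, hy⟩ : FF' l m) : KK l) = gbar g y := rfl
  simp only at h1
  rw [h2] at h1
  rw [← h1, AlgEquiv.coe_pow]
  have h3 : ∀ n : ℕ, ∀ z : FF' l m,
      ((⇑(FiniteField.frobeniusAlgEquivOfAlgebraic (ZMod l) (FF' l m)))^[n]) z = z ^ (l ^ n) := by
    intro n
    induction n with
    | zero => intro z; simp
    | succ n ih =>
      intro z
      rw [Function.iterate_succ_apply', ih, FiniteField.coe_frobeniusAlgEquivOfAlgebraic,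
        ZMod.card]
      simp only
      rw [← pow_mul, pow_succ]
  rw [h3]
  rfl

/-- Frobenius exponent -/
noncomputable def fexp {m : ℕ} (hm : m ≠ 0) (g : Gal(PadicAlgCl l/ℚ_[l])) : ℕ :=
  (exists_frobExp hm g).choose

theorem fexp_spec {m : ℕ} (hm : m ≠ 0) (g : Gal(PadicAlgCl l/ℚ_[l])) {y : KK l}
    (hy : y ∈ FF' l m) : gbar g y = y ^ (l ^ fexp hm g) :=
  (exists_frobExp hm g).choose_spec y hy

theorem fexp_mul {m : ℕ} (hm : m ≠ 0) (g h : Gal(PadicAlgCl l/ℚ_[l])) :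
    fexp hm (g * h) ≡ fexp hm g + fexp hm h [MOD m] := by
  rw [← frob_congr (l := l) hm]
  intro y hy
  rw [← fexp_spec hm (g * h) hy, gbar_mul, fexp_spec hm g (gbar_mem h hy), fexp_spec hm h hy,
    ← pow_mul, ← pow_add, add_comm]

theorem fexp_congr {m n : ℕ} (hm : m ≠ 0) (hn : n ≠ 0) (hmn : m ∣ n)
    (g : Gal(PadicAlgCl l/ℚ_[l])) : fexp hn g ≡ fexp hm g [MOD m] := by
  rw [← frob_congr (l := l) hm]
  intro y hy
  rw [← fexp_spec hm g hy, ← fexp_spec hn g (FF'_le hmn hy)]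

theorem dvd_fexp_iff {m : ℕ} (hm : m ≠ 0) (g : Gal(PadicAlgCl l/ℚ_[l])) :
    m ∣ fexp hm g ↔ ∀ y ∈ FF' l m, gbar g y = y := by
  rw [← Nat.modEq_zero_iff_dvd, ← frob_congr (l := l) hm]
  refine forall₂_congr fun y hy => ?_
  rw [← fexp_spec hm g hy, pow_zero, pow_one]

section d

variable (p : ℕ) [hp : Fact p.Prime]

theorem ppow_ne (n : ℕ) : p ^ n ≠ 0 := pow_ne_zero _ hp.out.ne_zero

theorem exists_lim (f : ℕ → ℕ) (hf : ∀ m n, m ≤ n → f n ≡ f m [MOD p ^ m]) :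
    ∃ x : ℤ_[p], ∀ n, (p : ℤ_[p]) ^ n ∣ x - (f n : ℤ_[p]) := by
  have h1 : ∀ {m n}, m ≤ n → (f m : ℤ_[p]) ≡ (f n : ℤ_[p])
      [SMOD ((IsLocalRing.maximalIdeal ℤ_[p]) ^ m • ⊤ : Submodule ℤ_[p] ℤ_[p])] := by
    intro m n hmn
    rw [SModEq.sub_mem, smul_eq_mul, Ideal.mul_top, PadicInt.maximalIdeal_eq_span_p,
      Ideal.span_singleton_pow, Ideal.mem_span_singleton]
    have h2 := (Nat.modEq_iff_dvd.mp (hf m n hmn))
    obtain ⟨c, hc⟩ := h2
    refine ⟨(c : ℤ_[p]), ?_⟩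
    have h3 : ((f m : ℤ) : ℤ_[p]) - ((f n : ℤ) : ℤ_[p]) = ((p ^ m : ℕ) : ℤ) * (c : ℤ_[p]) := by
      rw [← Int.cast_sub, hc]
      push_cast
      ring
    have h4 : (f m : ℤ_[p]) - (f n : ℤ_[p]) = ((f m : ℤ) : ℤ_[p]) - ((f n : ℤ) : ℤ_[p]) := by
      push_cast
      ring
    rw [h4, h3]
    push_cast
    ring
  obtain ⟨x, hx⟩ := IsPrecomplete.prec' (I := IsLocalRing.maximalIdeal ℤ_[p])
    (fun n => (f n : ℤ_[p])) h1
  refine ⟨x, fun n => ?_⟩
  have h2 := hx n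
  rw [SModEq.sub_mem, smul_eq_mul, Ideal.mul_top, PadicInt.maximalIdeal_eq_span_p,
    Ideal.span_singleton_pow, Ideal.mem_span_singleton] at h2
  rw [← neg_sub, dvd_neg]
  exact h2

theorem eq_of_forall_dvd {x y : ℤ_[p]} (h : ∀ n, (p : ℤ_[p]) ^ n ∣ x - y) : x = y := by
  rw [← sub_eq_zero, ← norm_eq_zero]
  by_contra hne
  have hpos : 0 < ‖x - y‖ := lt_of_le_of_ne (norm_nonneg _) (Ne.symm hne)
  obtain ⟨n, hn⟩ := exists_pow_lt_of_lt_one hpos (show (p : ℝ)⁻¹ < 1 from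
    inv_lt_one_of_one_lt₀ (by exact_mod_cast hp.out.one_lt))
  have h1 := (PadicInt.norm_le_pow_iff_mem_span_pow (x - y) n).mpr
    (Ideal.mem_span_singleton.mpr (h n))
  rw [zpow_neg, zpow_natCast, ← inv_pow] at h1
  exact absurd h1 (not_le.mpr hn)

theorem exists_dl (g : Gal(PadicAlgCl l/ℚ_[l])) :
    ∃ x : ℤ_[p], ∀ n, (p : ℤ_[p]) ^ n ∣ x - (fexp (ppow_ne p n) g : ℤ_[p]) :=
  exists_lim p (fun n => fexp (ppow_ne p n) g) fun m n hmn =>
    fexp_congr (ppow_ne p m) (ppow_ne p n) (pow_dvd_pow p hmn) g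

/-- the unramified `ℤ_p`-extension -/
noncomputable def dl (g : Gal(PadicAlgCl l/ℚ_[l])) : ℤ_[p] := (exists_dl p g).choose

theorem dl_spec (g : Gal(PadicAlgCl l/ℚ_[l])) (n : ℕ) :
    (p : ℤ_[p]) ^ n ∣ dl p g - (fexp (ppow_ne p n) g : ℤ_[p]) := (exists_dl p g).choose_spec n

theorem pow_dvd_natCast_iff (n a : ℕ) : (p : ℤ_[p]) ^ n ∣ (a : ℤ_[p]) ↔ p ^ n ∣ a := by
  rw [← CFData.toZModPow_eq_zero_iff, map_natCast, ZMod.natCast_eq_zero_iff]

theorem dl_mul (g h : Gal(PadicAlgCl l/ℚ_[l])) : dl p (g * h) = dl p g + dl p h := by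
  apply eq_of_forall_dvd p
  intro n
  have h1 := dl_spec p g n
  have h2 := dl_spec p h n
  have h3 := dl_spec p (g * h) n
  have h4 : (p : ℤ_[p]) ^ n ∣ (fexp (ppow_ne p n) (g * h) : ℤ_[p]) -
      ((fexp (ppow_ne p n) g : ℤ_[p]) + (fexp (ppow_ne p n) h : ℤ_[p])) := by
    have h5 := (Nat.modEq_iff_dvd.mp (fexp_mul (ppow_ne p n) g h).symm)
    obtain ⟨c, hc⟩ := h5
    refine ⟨(c : ℤ_[p]), ?_⟩
    have h6 : (((fexp (ppow_ne p n) (g * h) : ℕ) : ℤ) : ℤ_[p]) -
      (((fexp (ppow_ne p n) g + fexp (ppow_ne p n) h : ℕ) : ℤ) : ℤ_[p]) =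
        (((p ^ n : ℕ) : ℤ) : ℤ_[p]) * (c : ℤ_[p]) := by
      rw [← Int.cast_sub, hc]
      push_cast
      ring
    push_cast at h6
    rw [← h6]
  have h5 : dl p (g * h) - (dl p g + dl p h) =
      (dl p (g * h) - (fexp (ppow_ne p n) (g * h) : ℤ_[p])) -
      (dl p g - (fexp (ppow_ne p n) g : ℤ_[p])) - (dl p h - (fexp (ppow_ne p n) h : ℤ_[p])) +
      ((fexp (ppow_ne p n) (g * h) : ℤ_[p]) -
        ((fexp (ppow_ne p n) g : ℤ_[p]) + (fexp (ppow_ne p n) h : ℤ_[p]))) := by ring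
  rw [h5]
  exact dvd_add (dvd_sub (dvd_sub h3 h1) h2) h4

theorem dvd_dl_iff (g : Gal(PadicAlgCl l/ℚ_[l])) (n : ℕ) :
    (p : ℤ_[p]) ^ n ∣ dl p g ↔ ∀ y ∈ FF' l (p ^ n), gbar g y = y := by
  rw [← dvd_fexp_iff (ppow_ne p n), ← pow_dvd_natCast_iff]
  have h1 := dl_spec p g n
  constructor
  · intro h
    have := dvd_sub h h1
    rwa [sub_sub_cancel] at this
  · intro h
    have := dvd_add h1 h
    rwa [sub_add_cancel] at this

end d

theorem gbar_of_mem_kap {u : Gal(PadicAlgCl l/ℚ_[l])} (hu : u ∈ U) {y : KK l} (hy : y ∈ kap U) :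
    gbar u y = y := by
  obtain ⟨x, hx, rfl⟩ := hy
  rw [gbar_rd]
  congr 1
  exact Subtype.ext (mem_fld.mp hx u hu)

theorem mem_kap_of_gbar {m : ℕ} (hm : m ≠ 0) {y : KK l} (hy : y ∈ FF' l m)
    (h : ∀ u ∈ U, gbar u y = y) : y ∈ kap U := by
  by_cases h0 : y = 0
  · rw [h0]
    exact zero_mem _
  obtain ⟨z, hz, rfl⟩ := exists_teich hm y hy h0
  refine ⟨z, mem_fld.mpr fun u hu => ?_, rfl⟩
  have h1 := h u hu
  rw [gbar_rd, rd_eq_iff, coe_gOO] at h1
  have hz0 : (z : PadicAlgCl l) ≠ 0 := by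
    intro h2
    rw [h2, zero_pow (pow_sub_one_pos (l := l) hm).ne'] at hz
    exact zero_ne_one hz
  have hzn : ‖(z : PadicAlgCl l)‖ = 1 :=
    norm_of_pow_eq_one (pow_sub_one_pos (l := l) hm).ne' hz
  have h2 : u (z : PadicAlgCl l) / z = 1 := by
    apply eq_one_of_pow (coprime_pow_sub_one (l := l) hm)
    · rw [div_pow, ← map_pow, hz, map_one, div_one]
    · rw [div_sub_one hz0, norm_div, hzn, div_one]
      exact h1
  exact (div_eq_one_iff_eq hz0).mp h2

theorem kap_eq (hU : (LF l).IsOpen U) : kap U = FF' l (fdeg U) := by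
  have hf := (exists_unif_fdeg hU).1
  have hfin : Finite (kap U) := Nat.finite_of_card_ne_zero (by
    rw [card_kap hU]; exact pow_ne_zero _ hl.out.ne_zero)
  have hfin' := finite_FF' (l := l) hf.ne'
  have hle : kap U ≤ FF' l (fdeg U) := by
    intro y hy
    rw [mem_FF', ← card_kap hU]
    have : Fintype (kap U) := Fintype.ofFinite _
    have h1 := FiniteField.pow_card (⟨y, hy⟩ : kap U)
    rw [Nat.card_eq_fintype_card]
    exact congrArg Subtype.val h1
  have hcard : Nat.card (kap U) = Nat.card (FF' l (fdeg U)) := by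
    rw [card_kap hU, card_FF' hf.ne']
  apply SetLike.coe_injective
  apply Set.eq_of_subset_of_ncard_le hle (le_of_eq hcard.symm) (Set.toFinite _)

theorem FF'_le_kap_iff (hU : (LF l).IsOpen U) {m : ℕ} (hm : m ≠ 0) :
    FF' l m ≤ kap U ↔ m ∣ fdeg U := by
  rw [kap_eq hU]
  constructor
  · intro h
    rw [← Nat.modEq_zero_iff_dvd, ← frob_congr (l := l) hm]
    intro y hy
    have := mem_FF'.mp (h hy)
    rw [this, pow_zero, pow_one]
  · exact FF'_le

/-! ### the class formation -/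

section CF

variable (p : ℕ) [hp : Fact p.Prime]

/-- `d(U) = p ^ fU ℤ_p` -/
noncomputable def fU (U : Subgroup Gal(PadicAlgCl l/ℚ_[l])) : ℕ := padicValNat p (fdeg U)

theorem pow_fU_dvd (U : Subgroup Gal(PadicAlgCl l/ℚ_[l])) : p ^ fU p U ∣ fdeg U :=
  pow_padicValNat_dvd

theorem not_pow_fU_dvd (hU : (LF l).IsOpen U) : ¬ p ^ (fU p U + 1) ∣ fdeg U :=
  pow_succ_padicValNat_not_dvd (exists_unif_fdeg hU).1.ne'

theorem f_dvd' (hU : (LF l).IsOpen U) (u : Gal(PadicAlgCl l/ℚ_[l])) (hu : u ∈ U) :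
    (p : ℤ_[p]) ^ (fU p U) ∣ dl p u := by
  rw [dvd_dl_iff]
  intro y hy
  exact gbar_of_mem_kap hu ((FF'_le_kap_iff hU (ppow_ne p _)).mpr (pow_fU_dvd p U) hy)

theorem f_ex' (hU : (LF l).IsOpen U) : ∃ u ∈ U, ¬ (p : ℤ_[p]) ^ (fU p U + 1) ∣ dl (l := l) p u := by
  by_contra hne
  push Not at hne
  apply not_pow_fU_dvd p hU
  rw [← FF'_le_kap_iff hU (ppow_ne p _)]
  intro y hy
  exact mem_kap_of_gbar (ppow_ne p _) hy fun u hu => (dvd_dl_iff p u _).mp (hne u hu) y hy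

theorem d_sm' (n : ℕ) : ∃ U ∈ LF l, ∀ u ∈ U, (p : ℤ_[p]) ^ n ∣ dl (l := l) p u := by
  obtain ⟨z, hz⟩ := exists_primitive (l := l) (ppow_ne p n)
  have hint : IsIntegral ℚ_[l] z := Algebra.IsIntegral.isIntegral z
  have := adjoin.finiteDimensional hint
  obtain ⟨U, hU, hUle⟩ := fam_isOpen_of_finite (k := ℚ_[l]) (Ω := PadicAlgCl l) ℚ_[l]⟮z⟯
  refine ⟨U, hU, fun u hu => ?_⟩
  rw [dvd_dl_iff]
  intro y hy
  have huz : u z = z := hUle hu ⟨z, mem_adjoin_simple_self ℚ_[l] _⟩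
  by_cases h0 : y = 0
  · rw [h0, map_zero]
  obtain ⟨w, hw, rfl⟩ := exists_teich (ppow_ne p n) y hy h0
  have hN : NeZero (l ^ (p ^ n) - 1) := ⟨(pow_sub_one_pos (l := l) (ppow_ne p n)).ne'⟩
  obtain ⟨i, hi, hi2⟩ := hz.eq_pow_of_pow_eq_one hw
  rw [gbar_rd]
  congr 1
  apply Subtype.ext
  rw [coe_gOO, ← hi2, map_pow, huz]

/-- the valuation with values in `ℤ_p` -/
noncomputable def vl (hU : (LF l).IsOpen U) : ↥(FF (LU l) U) →+ ℤ_[p] where
  toFun a := ((VU hU a / (p ^ fU p U : ℕ) : ℤ) : ℤ_[p])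
  map_zero' := by
    have : VU hU 0 = 0 := (VUhom hU).map_zero
    rw [this, Int.zero_ediv, Int.cast_zero]
  map_add' a b := by
    rw [VU_add hU, Int.add_ediv_of_dvd_left, Int.cast_add]
    exact (Int.natCast_dvd_natCast.mpr (pow_fU_dvd p U)).trans ((exists_unif_fdeg hU).2.2 a)

theorem vl_spec (hU : (LF l).IsOpen U) (a : ↥(FF (LU l) U)) :
    (p : ℤ_[p]) ^ (fU p U) * vl p hU a = (VU hU a : ℤ_[p]) := by
  have h1 : ((p ^ fU p U : ℕ) : ℤ) ∣ VU hU a :=
    (Int.natCast_dvd_natCast.mpr (pow_fU_dvd p U)).trans ((exists_unif_fdeg hU).2.2 a)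
  have h2 := Int.mul_ediv_cancel' h1
  change _ * ((VU hU a / (p ^ fU p U : ℕ) : ℤ) : ℤ_[p]) = _
  conv_rhs => rw [← h2]
  push_cast
  rfl

noncomputable instance normedAlgUp (h : U₁ ≤ U₂) : NormedAlgebra ℚ_[l] (up h) :=
  { (inferInstance : Algebra ℚ_[l] (up h)) with
    norm_smul_le := fun r x => by
      change ‖((r • x : up h) : PadicAlgCl l)‖ ≤ ‖r‖ * ‖(x : PadicAlgCl l)‖
      have : ((r • x : up h) : PadicAlgCl l) = r • (x : PadicAlgCl l) := rfl
      rw [this]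
      exact norm_smul_le _ _ }

theorem local_idx (h : U₁ ≤ U₂) (hU₁ : (LF l).IsOpen U₁) (hN : (U₁.subgroupOf U₂).Normal)
    (hi : U₁.relIndex U₂ = p) :
    (LinearMap.range (nmr (LU l) h hU₁)).toAddSubgroup.index = p := by
  have hU₂ : (LF l).IsOpen U₂ := hU₁.mono h
  rw [index_range_nmr h hU₁ hU₂]
  have h1 := finiteDimensional_up h hU₁
  have h2 := isGalois_up h hU₂
  have h3 := finiteDimensional_fld hU₁
  have h4 : FiniteDimensional ℚ_[l] (up h) :=
    FiniteDimensional.of_injective (V₂ := fld U₁)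
      { toFun := fun x => ⟨x, x.2⟩
        map_add' := fun _ _ => rfl
        map_smul' := fun _ _ => rfl } fun x y hxy => Subtype.ext (congrArg Subtype.val hxy)
  exact norm_index l (fld U₂) (up h) hp.out (by rw [finrank_up h hU₁ hU₂, hi])

open Classical in
variable (l) in
/-- The class formation of local fields with the unramified `ℤ_p`-extension. -/
noncomputable def localCF : CFData p (LF l) (LU l) where
  sm := unitsRep_smooth
  d := dl p
  d_mul := dl_mul p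
  d_sm := d_sm' p
  f := fU p
  f_dvd U hU := f_dvd' p hU
  f_ex U hU := f_ex' p hU
  v U := if hU : (LF l).IsOpen U then vl p hU else 0
  v_nm U₁ U₂ h hU₁ b := by
    have hU₂ : (LF l).IsOpen U₂ := hU₁.mono h
    rw [dif_pos hU₁, dif_pos hU₂]
    apply mul_left_cancel₀ (CFData.pow_ne (p := p) (fU p U₂))
    rw [vl_spec, VU_nmr h hU₁ hU₂, ← vl_spec p hU₁, ← mul_assoc, ← pow_add]
    congr 2
    have hmono : fU p U₂ ≤ fU p U₁ := by
      by_contra hlt
      obtain ⟨u, hu, hu'⟩ := f_ex' p hU₁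
      exact absurd ((pow_dvd_pow _ (by omega)).trans (f_dvd' p hU₂ u (h hu))) hu'
    omega
  v_ex U hU := by
    rw [dif_pos hU]
    obtain ⟨ϖ, hϖ⟩ := (exists_unif_fdeg hU).2.1
    refine ⟨ϖ, fun hdvd => not_pow_fU_dvd p hU ?_⟩
    have h1 := vl_spec p hU ϖ
    rw [hϖ, Int.cast_natCast] at h1
    rw [← pow_dvd_natCast_iff, ← h1, pow_succ]
    exact mul_dvd_mul_left _ hdvd
  h1 U hU y := weak_h1_units U hU y
  Γ₀ := ⊤
  Γ₀_open := Fam.isOpen_top _
  Γ₀_normal := inferInstance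
  Γ₀_index := by simp
  idx U₁ U₂ h hU₁ _ hN hi := local_idx p h hU₁ hN hi

end CF

end Fermat.Agent.LocalCFT
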